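import Fermat.Agent.RelPic.Complex.Ring

/-!
# The rings of the two charts: constants, and localisation at the coordinate
-/

set_option autoImplicit false
set_option synthInstance.maxHeartbeats 400000

noncomputable section

universe u

open scoped TensorProduct

namespace Fermat.Agent.RelPic

namespace Model

variable {k : Type u} [Field k] (C : Model k) (R : Type u) [CommRing R] [Algebra k R]

theorem mem_span_one_of_mem {a : C.A₀} (hp : a ∈ C.subP) (hm : a ∈ C.subM) :
    a ∈ Submodule.span k {(1 : C.A₀)} := by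
  have h : (a : C.F) ∈ C.Ap ⊓ C.Am := ⟨C.mem_subP.mp hp, C.mem_subM.mp hm⟩
  rw [C.inf_eq, Algebra.mem_bot] at h
  obtain ⟨r, hr⟩ := h
  exact Submodule.mem_span_singleton.mpr ⟨r, Subtype.ext (by
    rw [← hr]; simp [Algebra.algebraMap_eq_smul_one])⟩

/-- Functions on both charts are constant along the curve. -/
theorem exists_algebraMap_of_mem {v : C.A R} (hp : v ∈ C.Cp R) (hm : v ∈ C.Cm R) :
    ∃ r : R, algebraMap R (C.A R) r = v := by
  obtain ⟨S', hS'⟩ := Submodule.exists_isCompl (Submodule.span k {(1 : C.A₀)})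
  have hone : Submodule.span k {(1 : C.A₀)} ≤ C.subM := by
    rw [Submodule.span_singleton_le_iff_mem, C.mem_subM]
    exact one_mem C.Am
  have hd : Disjoint C.subP (C.subM ⊓ S') := Submodule.disjoint_def.mpr fun a ha hb =>
    Submodule.disjoint_def.mp hS'.disjoint a (C.mem_span_one_of_mem ha hb.1) hb.2
  obtain ⟨f, -, hid, hzero⟩ := exists_proj hd
  have hsplit : ∀ a ∈ C.subM, ∃ c : k, f a = c • 1 := fun a ha => by
    have h : a ∈ Submodule.span k {(1 : C.A₀)} ⊔ S' ⊓ C.subM := by
      rw [← sup_inf_assoc_of_le _ hone, hS'.sup_eq_top, top_inf_eq]; exact ha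
    obtain ⟨y, hy, z, hz, rfl⟩ := Submodule.mem_sup.mp h
    obtain ⟨c, rfl⟩ := Submodule.mem_span_singleton.mp hy
    have h1 : f ((1 : C.A₀)) = 1 := hid _ (C.mem_subP.mpr (one_mem C.Ap))
    exact ⟨c, by rw [map_add, map_smul, h1, hzero z ⟨hz.2, hz.1⟩, add_zero]⟩
  have h1 : f.baseChange R v = v := by
    rw [C.baseChange_apply_eq (g := LinearMap.id) hid hp, LinearMap.baseChange_id]; rfl
  rw [← h1]
  refine C.swap.Cp_induction (P := fun w => ∃ r : R, algebraMap R (C.A R) r = f.baseChange R w) hm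
    (fun r a ha => ?_) fun v w ⟨r, hr⟩ ⟨s, hs⟩ => ⟨r + s, by rw [map_add, map_add, hr, hs]⟩
  obtain ⟨c, hc⟩ := hsplit a ha
  refine ⟨c • r, ?_⟩
  rw [LinearMap.baseChange_tmul, hc, TensorProduct.tmul_smul, TensorProduct.smul_tmul']
  rfl

/-- The coordinate as a function on the first chart. -/
def xP : C.Cp R := ⟨C.X₀ R, C.X₀_mem_Cp R⟩

/-- The inverse coordinate as a function on the second chart. -/
def yM : C.Cm R := ⟨C.Y₀ R, C.Y₀_mem_Cm R⟩

/-- The overlap is the first chart with the coordinate inverted. -/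
theorem isLocalization_xP : IsLocalization.Away (C.xP R) (C.A R) := by
  constructor
  constructor
  · rintro ⟨_, n, rfl⟩
    exact IsUnit.of_mul_eq_one _ (by simpa [xP] using C.X₀_pow_mul_Y₀_pow R n)
  · intro a
    obtain ⟨n, hn⟩ := C.exists_pow_mul_mem_Cp R a
    refine ⟨⟨⟨_, hn⟩, ⟨C.xP R ^ n, n, rfl⟩⟩, ?_⟩
    exact mul_comm a _
  · intro x y h
    exact ⟨1, by simpa using Subtype.ext h⟩

/-- The overlap is the second chart with the inverse coordinate inverted. -/
theorem isLocalization_yM : IsLocalization.Away (C.yM R) (C.A R) := by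
  exact C.swap.isLocalization_xP R

end Model

end Fermat.Agent.RelPic
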