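import Fermat.Agent.RelPic.Dict.Cover
import Fermat.Agent.RelPic.Dict.Algebra
import Fermat.Agent.RelPic.Modules.Affine

/-!
# Functions on the charts over `Spec R`

The overlap is a basic open of each chart, and global functions come from the base.
-/

set_option autoImplicit false
set_option synthInstance.maxHeartbeats 400000

noncomputable section

universe u

open CategoryTheory CategoryTheory.Limits AlgebraicGeometry NeronModelInfra
open scoped TensorProduct

namespace Fermat.Agent.RelPic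

section SecHom

variable {X X' : Scheme.{u}} {S S' : Type u} [CommRing S] [CommRing S']
  (j : Spec (CommRingCat.of S) ⟶ X) [IsOpenImmersion j]
  (j' : Spec (CommRingCat.of S') ⟶ X') [IsOpenImmersion j']

theorem secHom_bijective : Function.Bijective (secHom j) :=
  ConcreteCategory.bijective_of_isIso
    ((Scheme.ΓSpecIso (CommRingCat.of S)).inv ≫ (j.appIso ⊤).inv)

theorem appIso_hom_secHom (a : S) :
    (j.appIso ⊤).hom (secHom j a) = (Scheme.ΓSpecIso (CommRingCat.of S)).inv a :=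
  Iso.inv_hom_id_apply (j.appIso ⊤) _

theorem isAffineOpen_image_top : IsAffineOpen (j ''ᵁ ⊤) :=
  (isAffineOpen_top _).image_of_isOpenImmersion j

/-- Functions of a chart pulled back to a chart upstairs. -/
theorem appLE_secHom (f : X' ⟶ X) (φ : S →+* S')
    (h : Spec.map (CommRingCat.ofHom φ) ≫ j = j' ≫ f) (e : j' ''ᵁ ⊤ ≤ f ⁻¹ᵁ j ''ᵁ ⊤) (a : S) :
    f.appLE (j ''ᵁ ⊤) (j' ''ᵁ ⊤) e (secHom j a) = secHom j' (φ a) := by
  apply (ConcreteCategory.bijective_of_isIso (j'.appIso ⊤).hom).injective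
  rw [appIso_hom_secHom j', Scheme.Hom.appIso_hom']
  rw [← ConcreteCategory.comp_apply, Scheme.Hom.appLE_comp_appLE]
  have h1 : ∀ (g g' : Spec (CommRingCat.of S') ⟶ X) (hg : g = g') (e₁ : ⊤ ≤ g ⁻¹ᵁ j ''ᵁ ⊤)
      (e₂ : ⊤ ≤ g' ⁻¹ᵁ j ''ᵁ ⊤), g.appLE (j ''ᵁ ⊤) ⊤ e₁ = g'.appLE (j ''ᵁ ⊤) ⊤ e₂ := by
    rintro g _ rfl _ _; rfl
  have e2 : ⊤ ≤ (Spec.map (CommRingCat.ofHom φ) ≫ j) ⁻¹ᵁ j ''ᵁ ⊤ := by
    rw [Scheme.Hom.comp_preimage, Scheme.Hom.preimage_image_eq, Scheme.Hom.preimage_top]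
  rw [h1 _ _ h.symm _ e2, ← Scheme.Hom.appLE_comp_appLE (Spec.map (CommRingCat.ofHom φ)) j
      (j ''ᵁ ⊤) ⊤ ⊤ (j.preimage_image_eq ⊤).ge (Scheme.Hom.preimage_top _).ge,
    ← Scheme.Hom.appIso_hom', ConcreteCategory.comp_apply, appIso_hom_secHom, Scheme.Hom.appLE]
  rw [← ConcreteCategory.comp_apply (Scheme.ΓSpecIso (CommRingCat.of S)).inv]
  exact congr($(Scheme.ΓSpecIso_inv_naturality (CommRingCat.ofHom φ)).hom a).symm

/-- Functions on a smaller chart. -/
theorem res_secHom (i : Spec (CommRingCat.of S') ⟶ X) [IsOpenImmersion i] (φ : S →+* S')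
    (h : Spec.map (CommRingCat.ofHom φ) ≫ j = i) (e : i ''ᵁ ⊤ ≤ j ''ᵁ ⊤) (a : S) :
    X.presheaf.map (homOfLE e).op (secHom j a) = secHom i (φ a) := by
  rw [← appLE_secHom j i (𝟙 X) φ (by rw [h, Category.comp_id]) e a]
  simp only [Scheme.Hom.appLE, Scheme.Hom.id_app]
  rfl

/-- A chart of `X` sits over a chart of an affine scheme. -/
theorem appLE_ΓSpecIso {R : Type u} [CommRing R] (f : X ⟶ Spec (CommRingCat.of R)) (φ : R →+* S)
    (h : j ≫ f = Spec.map (CommRingCat.ofHom φ)) (e : j ''ᵁ ⊤ ≤ f ⁻¹ᵁ ⊤) (r : R) :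
    f.appLE ⊤ (j ''ᵁ ⊤) e ((Scheme.ΓSpecIso (CommRingCat.of R)).inv r) = secHom j (φ r) := by
  apply (ConcreteCategory.bijective_of_isIso (j.appIso ⊤).hom).injective
  rw [appIso_hom_secHom, Scheme.Hom.appIso_hom']
  rw [← ConcreteCategory.comp_apply, Scheme.Hom.appLE_comp_appLE]
  have h1 : ∀ (g g' : Spec (CommRingCat.of S) ⟶ Spec (CommRingCat.of R)) (_ : g = g')
      (e₁ : ⊤ ≤ g ⁻¹ᵁ ⊤) (e₂ : ⊤ ≤ g' ⁻¹ᵁ ⊤), g.appLE ⊤ ⊤ e₁ = g'.appLE ⊤ ⊤ e₂ := by
    rintro g _ rfl _ _; rfl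
  rw [h1 _ _ h _ (Scheme.Hom.preimage_top _).ge, Scheme.Hom.appLE,
    ← ConcreteCategory.comp_apply (Scheme.ΓSpecIso (CommRingCat.of R)).inv]
  exact congr($(Scheme.ΓSpecIso_inv_naturality (CommRingCat.ofHom φ)).hom r).symm

/-- The basic open of a function on a chart, when inverting it gives a smaller chart. -/
theorem image_top_eq_basicOpen [Algebra S S'] (x : S) [IsLocalization.Away x S'] (φ : S →+* S')
    (hφ : algebraMap S S' = φ)
    (i : Spec (CommRingCat.of S') ⟶ X) [IsOpenImmersion i]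
    (h : Spec.map (CommRingCat.ofHom φ) ≫ j = i) :
    i ''ᵁ ⊤ = X.basicOpen (secHom j x) := by
  have hb : X.basicOpen (secHom j x) = j ''ᵁ
      (Spec (CommRingCat.of S)).basicOpen ((Scheme.ΓSpecIso (CommRingCat.of S)).inv x) :=
    (Scheme.image_basicOpen j _).symm
  rw [hb, basicOpen_eq_of_affine, Scheme.Hom.image_top_eq_opensRange]
  subst hφ
  apply TopologicalSpace.Opens.ext
  show Set.range i = j '' (PrimeSpectrum.basicOpen x : Set (PrimeSpectrum S))
  rw [← h, Scheme.Hom.comp_base, TopCat.coe_comp, Set.range_comp]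
  exact congrArg (j '' ·) (PrimeSpectrum.localization_away_comap_range S' x)

end SecHom

variable {k : Type u} [Field k] {C : Scheme.{u}} {c : C ⟶ Spec (CommRingCat.of k)}
  {ε : SchemeHomOver (𝟙 (Spec (CommRingCat.of k))) c} (G : GeomModel c ε)
  (R : Type u) [CommRing R] [Algebra k R]

theorem GeomModel.res_p (a : G.model.Cp R) :
    (pullback c (str k R)).presheaf.map (homOfLE (G.opens₀_le_p R)).op (secHom (G.jp R) a) =
      secHom (G.j₀ R) (a : G.model.A R) :=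
  res_secHom (G.jp R) (G.j₀ R) (G.model.Cp R).val.toRingHom (G.val_jp R) _ a

theorem GeomModel.res_m (a : G.model.Cm R) :
    (pullback c (str k R)).presheaf.map (homOfLE (G.opens₀_le_m R)).op (secHom (G.jm R) a) =
      secHom (G.j₀ R) (a : G.model.A R) :=
  res_secHom (G.jm R) (G.j₀ R) (G.model.Cm R).val.toRingHom (G.val_jm R) _ a

theorem GeomModel.basicOpen_xP :
    (pullback c (str k R)).basicOpen (secHom (G.jp R) (G.model.xP R)) = G.j₀ R ''ᵁ ⊤ := by
  have := G.model.isLocalization_xP R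
  exact (image_top_eq_basicOpen (S' := G.model.A R) (G.jp R) (G.model.xP R)
    (G.model.Cp R).val.toRingHom (RingHom.ext fun _ => rfl) (G.j₀ R) (G.val_jp R)).symm

theorem GeomModel.basicOpen_yM :
    (pullback c (str k R)).basicOpen (secHom (G.jm R) (G.model.yM R)) = G.j₀ R ''ᵁ ⊤ := by
  have := G.model.isLocalization_yM R
  exact (image_top_eq_basicOpen (S' := G.model.A R) (G.jm R) (G.model.yM R)
    (G.model.Cm R).val.toRingHom (RingHom.ext fun _ => rfl) (G.j₀ R) (G.val_jm R)).symm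

include G in
/-- Global functions come from the base. -/
theorem GeomModel.exists_appTop_eq (a : Γ(pullback c (str k R), ⊤)) :
    ∃ b, (pullback.snd c (str k R)).appTop b = a := by
  let X := pullback c (str k R)
  obtain ⟨p, hp⟩ := (secHom_bijective (G.jp R)).surjective
    (X.presheaf.map (homOfLE (le_top : G.jp R ''ᵁ ⊤ ≤ ⊤)).op a)
  obtain ⟨m, hm⟩ := (secHom_bijective (G.jm R)).surjective
    (X.presheaf.map (homOfLE (le_top : G.jm R ''ᵁ ⊤ ≤ ⊤)).op a)
  have hpm : (p : G.model.A R) = m := by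
    apply (secHom_bijective (G.j₀ R)).injective
    rw [← G.res_p, ← G.res_m, hp, hm]
    exact (resRing_resRing (X := X) _ (G.opens₀_le_p R) a).trans
      (resRing_resRing (X := X) _ (G.opens₀_le_m R) a).symm
  obtain ⟨r, hr⟩ := G.model.exists_algebraMap_of_mem R p.2 (hpm ▸ m.2)
  refine ⟨(Scheme.ΓSpecIso (CommRingCat.of R)).inv r, ?_⟩
  refine TopCat.Sheaf.eq_of_locally_eq' X.sheaf
    (fun b : Bool => cond b (G.jp R ''ᵁ ⊤) (G.jm R ''ᵁ ⊤)) ⊤ (fun b => homOfLE le_top) ?_ _ _ ?_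
  · rw [← G.opensP_sup_opensM R]
    exact sup_le (le_iSup_of_le true le_rfl) (le_iSup_of_le false le_rfl)
  · rintro (_ | _)
    · refine Eq.trans ?_ hm
      show (pullback.snd c (str k R)).appLE ⊤ (G.jm R ''ᵁ ⊤) le_top _ = _
      rw [appLE_ΓSpecIso (G.jm R) _ (algebraMap R (G.model.Cm R)) (chartLift_snd _ _) le_top]
      exact congrArg _ (Subtype.ext (hr.trans hpm))
    · refine Eq.trans ?_ hp
      show (pullback.snd c (str k R)).appLE ⊤ (G.jp R ''ᵁ ⊤) le_top _ = _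
      rw [appLE_ΓSpecIso (G.jp R) _ (algebraMap R (G.model.Cp R)) (chartLift_snd _ _) le_top]
      exact congrArg _ (Subtype.ext hr)

end Fermat.Agent.RelPic
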