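import Fermat.Agent.RelPic.Dict.Functions
import Fermat.Agent.RelPic.Complex.Equiv

/-!
# The triple of sections of an invertible module, and isomorphisms
-/

set_option autoImplicit false

noncomputable section

universe u

open CategoryTheory CategoryTheory.Limits AlgebraicGeometry NeronModelInfra

namespace Fermat.Agent.RelPic

attribute [local instance 10000] Subalgebra.toCommRing Subalgebra.toSemiring Submodule.module
  Submodule.addCommMonoid Submodule.addCommGroup

/-- Invertible modules transport along isomorphisms of rings. -/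
theorem invertible_of_semilinear {S S' N N' : Type u} [CommRing S] [CommRing S'] [AddCommGroup N]
    [Module S N] [AddCommGroup N'] [Module S' N'] [Module.Invertible S N] (σ : S →+* S')
    (hσ : Function.Bijective σ) (e : N →+ N') (he : Function.Bijective e)
    (hsmul : ∀ (s : S) v, e (s • v) = σ s • e v) : Module.Invertible S' N' := by
  let := σ.toAlgebra
  let := Module.compHom N' σ
  have : IsScalarTower S S' N' := .of_algebraMap_smul fun _ _ => rfl
  let f : N →ₗ[S] N' := { e with map_smul' := hsmul }
  have : IsLocalization (⊥ : Submonoid S) S' := by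
    constructor
    constructor
    · rintro ⟨s, hs⟩
      obtain rfl := Submonoid.mem_bot.mp hs
      rw [map_one]
      exact isUnit_one
    · intro z
      obtain ⟨s, rfl⟩ := hσ.2 z
      exact ⟨⟨s, 1⟩, by rw [Submonoid.coe_one, map_one, mul_one]; rfl⟩
    · intro x y h
      exact ⟨1, by rw [hσ.1 h]⟩
  have : IsLocalizedModule (⊥ : Submonoid S) f := by
    constructor
    · rintro ⟨s, hs⟩
      obtain rfl := Submonoid.mem_bot.mp hs
      rw [map_one]
      exact isUnit_one
    · intro z
      obtain ⟨v, rfl⟩ := he.2 z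
      exact ⟨⟨v, 1⟩, one_smul _ _⟩
    · intro x y h
      exact ⟨1, by rw [he.1 h]⟩
  exact Module.Invertible.of_isLocalization (⊥ : Submonoid S) f

section Chart

variable {X : Scheme.{u}} {L : X.Modules}

/-- Restriction of sections of an invertible module to a dense basic open is injective. -/
theorem resSec_injective_of_regular {U W : X.Opens} (hU : IsAffineOpen U)
    (hL : Scheme.Modules.IsInvertible L) (f : Γ(X, U)) (hW : X.basicOpen f ≤ W) (h : W ≤ U)
    (hf : ∀ a, f * a = 0 → a = 0) : Function.Injective (resSec L h) := by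
  refine (injective_iff_map_eq_zero _).mpr fun s hs => ?_
  have h0 : resSec L (X.basicOpen_le f) s = 0 := by
    rw [← resSec_resSec L h hW, hs, map_zero]
  obtain ⟨n, hn⟩ := (localizes_of_isInvertible hU hL).exists_zero f s h0
  have := invertible_sections hU hL
  refine (Module.forall_dual_apply_eq_zero_iff Γ(X, U) s).mp fun φ => ?_
  have hφ : f ^ n * φ s = 0 := by rw [← smul_eq_mul, ← map_smul, hn, map_zero]
  clear hn
  induction n with
  | zero => simpa using hφ
  | succ n ih => exact ih (hf _ (by rw [← mul_assoc, ← pow_succ']; exact hφ))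

/-- Sections on a basic open extend after multiplying by a power. -/
theorem exists_resSec_eq_pow_smul {U W : X.Opens} (hU : IsAffineOpen U)
    (hL : Scheme.Modules.IsInvertible L) (f : Γ(X, U)) (hW : X.basicOpen f = W) (h : W ≤ U)
    (v : Γ(L, W)) :
    ∃ (n : ℕ) (s : Γ(L, U)), resSec L h s = X.presheaf.map (homOfLE h).op f ^ n • v := by
  subst hW
  obtain ⟨n, s, hs⟩ := (localizes_of_isInvertible hU hL).exists_eq f v
  exact ⟨n, s, by rw [← map_pow]; exact hs⟩

variable {S A : Type u} [CommRing S] [CommRing A] (j : Spec (CommRingCat.of S) ⟶ X)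
  [IsOpenImmersion j]

/-- The sections on a chart, over the ring of the chart. -/
theorem invertible_image (hL : Scheme.Modules.IsInvertible L) [Module S Γ(L, j ''ᵁ ⊤)]
    (hsmul : ∀ (a : S) (s : Γ(L, j ''ᵁ ⊤)), a • s = secHom j a • s) :
    Module.Invertible S Γ(L, j ''ᵁ ⊤) := by
  have := invertible_sections (isAffineOpen_image_top j) hL
  let e := RingEquiv.ofBijective _ (secHom_bijective j)
  refine invertible_of_semilinear e.symm.toRingHom e.symm.bijective (AddMonoidHom.id _)
    Function.bijective_id fun r s => ?_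
  show r • s = e.symm r • s
  rw [hsmul]
  exact congrArg (· • s) (e.apply_symm_apply r).symm

end Chart

variable {k : Type u} [Field k] {C : Scheme.{u}} {c : C ⟶ Spec (CommRingCat.of k)}
  {ε : SchemeHomOver (𝟙 (Spec (CommRingCat.of k))) c} (G : GeomModel c ε)
  (R : Type u) [CommRing R] [Algebra k R]

theorem GeomModel.regular_xP (a : Γ(pullback c (str k R), G.jp R ''ᵁ ⊤))
    (h : secHom (G.jp R) (G.model.xP R) * a = 0) : a = 0 := by
  obtain ⟨b, rfl⟩ := (secHom_bijective (G.jp R)).surjective a
  rw [← RingHom.map_mul] at h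
  have h1 : G.model.X₀ R * (b : G.model.A R) = 0 :=
    congrArg Subtype.val ((secHom_bijective (G.jp R)).injective (h.trans (RingHom.map_zero _).symm))
  have h2 : (b : G.model.A R) = 0 := by
    rw [← one_mul (b : G.model.A R), ← G.model.X₀_mul_Y₀ R, mul_comm (G.model.X₀ R), mul_assoc, h1,
      mul_zero]
  rw [Subtype.ext (h2.trans rfl : (b : G.model.A R) = (0 : G.model.Cp R)), RingHom.map_zero]

theorem GeomModel.regular_yM (a : Γ(pullback c (str k R), G.jm R ''ᵁ ⊤))
    (h : secHom (G.jm R) (G.model.yM R) * a = 0) : a = 0 := by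
  obtain ⟨b, rfl⟩ := (secHom_bijective (G.jm R)).surjective a
  rw [← RingHom.map_mul] at h
  have h1 : G.model.Y₀ R * (b : G.model.A R) = 0 :=
    congrArg Subtype.val ((secHom_bijective (G.jm R)).injective (h.trans (RingHom.map_zero _).symm))
  have h2 : (b : G.model.A R) = 0 := by
    rw [← one_mul (b : G.model.A R), ← G.model.X₀_mul_Y₀ R, mul_assoc, h1, mul_zero]
  rw [Subtype.ext (h2.trans rfl : (b : G.model.A R) = (0 : G.model.Cm R)), RingHom.map_zero]

variable {R} {L : (pullback c (str k R)).Modules}

theorem GeomModel.resSec_p_injective (hL : Scheme.Modules.IsInvertible L) :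
    Function.Injective (resSec L (G.image_le_p R)) :=
  resSec_injective_of_regular (isAffineOpen_image_top (G.jp R)) hL _ (G.basicOpen_xP R).le _
    (G.regular_xP R)

theorem GeomModel.resSec_m_injective (hL : Scheme.Modules.IsInvertible L) :
    Function.Injective (resSec L (G.image_le_m R)) :=
  resSec_injective_of_regular (isAffineOpen_image_top (G.jm R)) hL _ (G.basicOpen_yM R).le _
    (G.regular_yM R)

theorem GeomModel.resSec_smul_p (a : G.model.Cp R) (s : Γ(L, G.jp R ''ᵁ ⊤)) :
    resSec L (G.image_le_p R) (secHom (G.jp R) a • s) =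
      secHom (G.j₀ R) (a : G.model.A R) • resSec L (G.image_le_p R) s :=
  (resSec_smul L (G.image_le_p R) _ s).trans (congrArg (· • _) (G.res_p R a))

theorem GeomModel.resSec_smul_m (a : G.model.Cm R) (s : Γ(L, G.jm R ''ᵁ ⊤)) :
    resSec L (G.image_le_m R) (secHom (G.jm R) a • s) =
      secHom (G.j₀ R) (a : G.model.A R) • resSec L (G.image_le_m R) s :=
  (resSec_smul L (G.image_le_m R) _ s).trans (congrArg (· • _) (G.res_m R a))

/-- The sections on the overlap, over the rings of the overlap and of the base. -/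
def GeomModel.SecM (L : (pullback c (str k R)).Modules) : Type u := Γ(L, G.j₀ R ''ᵁ ⊤)

instance (L : (pullback c (str k R)).Modules) : AddCommGroup (G.SecM L) :=
  inferInstanceAs (AddCommGroup Γ(L, G.j₀ R ''ᵁ ⊤))

instance (L : (pullback c (str k R)).Modules) : Module (G.model.A R) (G.SecM L) :=
  Module.compHom Γ(L, G.j₀ R ''ᵁ ⊤) (secHom (G.j₀ R))

instance (L : (pullback c (str k R)).Modules) : Module R (G.SecM L) :=
  Module.compHom (G.SecM L) (algebraMap R (G.model.A R))

instance (L : (pullback c (str k R)).Modules) : IsScalarTower R (G.model.A R) (G.SecM L) :=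
  ⟨fun r a v => by
    show (r • a) • v = algebraMap R (G.model.A R) r • a • v
    rw [show r • a = algebraMap R (G.model.A R) r * a from Algebra.smul_def r a, mul_smul]⟩

/-- The identification of the sections on the overlap. -/
def GeomModel.secMEquiv (L : (pullback c (str k R)).Modules) :
    G.SecM L ≃+ Γ(L, G.j₀ R ''ᵁ ⊤) := AddEquiv.refl _

theorem GeomModel.secMEquiv_smul (a : G.model.A R) (v : G.SecM L) :
    G.secMEquiv L (a • v) = secHom (G.j₀ R) a • G.secMEquiv L v := rfl

/-- The lattice of sections on the first chart. -/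
def GeomModel.secP (L : (pullback c (str k R)).Modules) : Submodule (G.model.Cp R) (G.SecM L) where
  carrier := {v | ∃ s, resSec L (G.image_le_p R) s = G.secMEquiv L v}
  add_mem' := by
    rintro a b ⟨s, hs⟩ ⟨t, ht⟩
    exact ⟨s + t, by rw [map_add, map_add, hs, ht]⟩
  zero_mem' := ⟨0, by rw [map_zero, map_zero]⟩
  smul_mem' := by
    rintro a v ⟨s, hs⟩
    refine ⟨secHom (G.jp R) a • s, ?_⟩
    rw [G.resSec_smul_p, hs, ← G.secMEquiv_smul]
    rfl

/-- The lattice of sections on the second chart. -/
def GeomModel.secMm (L : (pullback c (str k R)).Modules) : Submodule (G.model.Cm R) (G.SecM L) where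
  carrier := {v | ∃ s, resSec L (G.image_le_m R) s = G.secMEquiv L v}
  add_mem' := by
    rintro a b ⟨s, hs⟩ ⟨t, ht⟩
    exact ⟨s + t, by rw [map_add, map_add, hs, ht]⟩
  zero_mem' := ⟨0, by rw [map_zero, map_zero]⟩
  smul_mem' := by
    rintro a v ⟨s, hs⟩
    refine ⟨secHom (G.jm R) a • s, ?_⟩
    rw [G.resSec_smul_m, hs, ← G.secMEquiv_smul]
    rfl

theorem GeomModel.invertible_secP (hL : Scheme.Modules.IsInvertible L) :
    Module.Invertible (G.model.Cp R) (G.secP L) := by
  let : Module (G.model.Cp R) Γ(L, G.jp R ''ᵁ ⊤) := Module.compHom _ (secHom (G.jp R))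
  have := invertible_image (G.jp R) hL fun _ _ => rfl
  let f : Γ(L, G.jp R ''ᵁ ⊤) →ₗ[G.model.Cp R] G.secP L :=
    { toFun := fun s => ⟨(G.secMEquiv L).symm (resSec L (G.image_le_p R) s), s,
        ((G.secMEquiv L).apply_symm_apply _).symm⟩
      map_add' := fun s t => Subtype.ext ((congrArg _ (map_add _ s t)).trans (map_add _ _ _))
      map_smul' := fun a s => Subtype.ext (G.resSec_smul_p a s) }
  refine .congr (LinearEquiv.ofBijective f ⟨fun s t h => G.resSec_p_injective hL ?_, fun v => ?_⟩)
  · exact congrArg Subtype.val h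
  · obtain ⟨s, hs⟩ := v.2
    exact ⟨s, Subtype.ext hs⟩

theorem GeomModel.invertible_secMm (hL : Scheme.Modules.IsInvertible L) :
    Module.Invertible (G.model.Cm R) (G.secMm L) := by
  let : Module (G.model.Cm R) Γ(L, G.jm R ''ᵁ ⊤) := Module.compHom _ (secHom (G.jm R))
  have := invertible_image (G.jm R) hL fun _ _ => rfl
  let f : Γ(L, G.jm R ''ᵁ ⊤) →ₗ[G.model.Cm R] G.secMm L :=
    { toFun := fun s => ⟨(G.secMEquiv L).symm (resSec L (G.image_le_m R) s), s,
        ((G.secMEquiv L).apply_symm_apply _).symm⟩
      map_add' := fun s t => Subtype.ext ((congrArg _ (map_add _ s t)).trans (map_add _ _ _))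
      map_smul' := fun a s => Subtype.ext (G.resSec_smul_m a s) }
  refine .congr (LinearEquiv.ofBijective f ⟨fun s t h => G.resSec_m_injective hL ?_, fun v => ?_⟩)
  · exact congrArg Subtype.val h
  · obtain ⟨s, hs⟩ := v.2
    exact ⟨s, Subtype.ext hs⟩

theorem GeomModel.exists_pow_secP (hL : Scheme.Modules.IsInvertible L) (v : G.SecM L) :
    ∃ n : ℕ, G.model.X₀ R ^ n • v ∈ G.secP L := by
  obtain ⟨n, s, hs⟩ := exists_resSec_eq_pow_smul (isAffineOpen_image_top (G.jp R)) hL _
    (G.basicOpen_xP R) (G.image_le_p R) (G.secMEquiv L v)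
  refine ⟨n, s, hs.trans ?_⟩
  rw [G.secMEquiv_smul, map_pow]
  exact congrArg (fun a => a ^ n • G.secMEquiv L v) (G.res_p R (G.model.xP R))

theorem GeomModel.exists_pow_secMm (hL : Scheme.Modules.IsInvertible L) (v : G.SecM L) :
    ∃ n : ℕ, G.model.Y₀ R ^ n • v ∈ G.secMm L := by
  obtain ⟨n, s, hs⟩ := exists_resSec_eq_pow_smul (isAffineOpen_image_top (G.jm R)) hL _
    (G.basicOpen_yM R) (G.image_le_m R) (G.secMEquiv L v)
  refine ⟨n, s, hs.trans ?_⟩
  rw [G.secMEquiv_smul, map_pow]
  exact congrArg (fun a => a ^ n • G.secMEquiv L v) (G.res_m R (G.model.yM R))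

/-- The triple of sections of an invertible module. -/
def GeomModel.secTriple (hL : Scheme.Modules.IsInvertible L) : Triple G.model R where
  M := G.SecM L
  p := G.secP L
  m := G.secMm L
  inv_p := G.invertible_secP hL
  inv_m := G.invertible_secMm hL
  exists_pow_smul_mem_p := G.exists_pow_secP hL
  exists_pow_smul_mem_m := G.exists_pow_secMm hL

theorem tripleOf_secTriple (hL : Scheme.Modules.IsInvertible L) :
    TripleOf G R L (G.secTriple hL) :=
  ⟨{ toEquiv := G.secMEquiv L
     map_smul := G.secMEquiv_smul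
     mem_p := fun _ => Iff.rfl
     mem_m := fun _ => Iff.rfl }⟩

/-- Every invertible module has a triple of sections. -/
theorem exists_tripleOf_of_isInvertible (hL : Scheme.Modules.IsInvertible L) :
    ∃ T : Triple G.model R, TripleOf G R L T :=
  ⟨_, tripleOf_secTriple G hL⟩

end Fermat.Agent.RelPic
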