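import Fermat.Agent.RelPic.GeomDefs
import Fermat.Agent.RelPic.Modules.Basic
import Fermat.Prelude.Def_AlgebraicGeometry_RelativePicardFunctor

/-!
# The three charts of the curve over `Spec R`, and triples of sections

For a geometric model `G` of the curve and a `k`-algebra `R`, the rings `Cp R`, `Cm R`, `A R` give
three affine opens of `pullback c (str k R)`.  `TripleOf G L T` says that `T` is the triple of
sections of `L` on them.
-/

set_option autoImplicit false

noncomputable section

universe u

open CategoryTheory CategoryTheory.Limits AlgebraicGeometry NeronModelInfra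
open scoped TensorProduct

namespace Fermat.Agent.RelPic

variable {k : Type u} [Field k]

section Algebra

variable (C : Model k) (R : Type u) [CommRing R] [Algebra k R]

/-- Functions on the first chart, constant along the base. -/
def Model.toCp : C.Ap →ₐ[k] C.Cp R :=
  ((Algebra.TensorProduct.map (AlgHom.id R R) (Subalgebra.inclusion C.Ap_le)).rangeRestrict.restrictScalars
    k).comp Algebra.TensorProduct.includeRight

/-- Functions on the second chart, constant along the base. -/
def Model.toCm : C.Am →ₐ[k] C.Cm R :=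
  ((Algebra.TensorProduct.map (AlgHom.id R R) (Subalgebra.inclusion C.Am_le)).rangeRestrict.restrictScalars
    k).comp Algebra.TensorProduct.includeRight

/-- Functions on the overlap, constant along the base. -/
def Model.toA : C.A₀ →ₐ[k] C.A R := Algebra.TensorProduct.includeRight

@[simp]
theorem Model.coe_toCp (a : C.Ap) :
    ((C.toCp R a : C.Cp R) : C.A R) = 1 ⊗ₜ[k] Subalgebra.inclusion C.Ap_le a := rfl

@[simp]
theorem Model.coe_toCm (a : C.Am) :
    ((C.toCm R a : C.Cm R) : C.A R) = 1 ⊗ₜ[k] Subalgebra.inclusion C.Am_le a := rfl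

theorem map_inclusion_injective {S S' : Subalgebra k C.F} (h : S ≤ S') :
    Function.Injective (Algebra.TensorProduct.map (AlgHom.id R R) (Subalgebra.inclusion h)) := by
  have h1 : Function.Injective
      ((Subalgebra.inclusion h).toLinearMap.lTensor R) :=
    Module.Flat.lTensor_preserves_injective_linearMap _ (Subalgebra.inclusion_injective h)
  exact h1

/-- The first chart ring is a tensor product. -/
def Model.cpEquiv : R ⊗[k] C.Ap ≃ₐ[R] C.Cp R :=
  AlgEquiv.ofInjective _ (map_inclusion_injective C R C.Ap_le)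

/-- The second chart ring is a tensor product. -/
def Model.cmEquiv : R ⊗[k] C.Am ≃ₐ[R] C.Cm R :=
  AlgEquiv.ofInjective _ (map_inclusion_injective C R C.Am_le)

end Algebra

section Lift

variable {C : Scheme.{u}} {c : C ⟶ Spec (CommRingCat.of k)}
  {A : Type u} [CommRing A] [Algebra k A] {ι : Spec (CommRingCat.of A) ⟶ C}
  {R : Type u} [CommRing R] [Algebra k R]
  {S : Type u} [CommRing S] [Algebra k S] [Algebra R S] [IsScalarTower k R S]

/-- The map to the base change given by a chart and a structure of `R`-algebra. -/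
def chartLift (hι : ι ≫ c = str k A) (g : A →ₐ[k] S) :
    Spec (CommRingCat.of S) ⟶ pullback c (str k R) :=
  pullback.lift (specHom g ≫ ι) (Spec.map (CommRingCat.ofHom (algebraMap R S))) (by
    rw [Category.assoc, hι, ← Spec.map_comp, ← Spec.map_comp]
    congr 1
    ext x
    exact (g.commutes x).trans (IsScalarTower.algebraMap_apply k R S x))

@[reassoc (attr := simp)]
theorem chartLift_fst (hι : ι ≫ c = str k A) (g : A →ₐ[k] S) :
    chartLift (R := R) hι g ≫ pullback.fst c (str k R) = specHom g ≫ ι :=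
  pullback.lift_fst _ _ _

@[reassoc (attr := simp)]
theorem chartLift_snd (hι : ι ≫ c = str k A) (g : A →ₐ[k] S) :
    chartLift (R := R) hι g ≫ pullback.snd c (str k R) =
      Spec.map (CommRingCat.ofHom (algebraMap R S)) :=
  pullback.lift_snd _ _ _

/-- A chart of the base change is a chart of the curve times the base. -/
theorem chartLift_eq (hι : ι ≫ c = str k A) (g : A →ₐ[k] S)
    (e : R ⊗[k] A ≃ₐ[R] S) (he : ∀ a, e (1 ⊗ₜ a) = g a) :
    chartLift (R := R) hι g =
      (Spec.map (CommRingCat.ofHom e.toRingEquiv.toRingHom) ≫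
        (pullbackSpecIso k R A).inv ≫ (pullbackSymmetry (str k R) (str k A)).hom) ≫
        pullback.map (str k A) (str k R) c (str k R) ι (𝟙 _) (𝟙 _) (by simp [hι]) (by simp) := by
  apply pullback.hom_ext
  · simp only [chartLift_fst, Category.assoc, pullback.lift_fst]
    rw [pullbackSymmetry_hom_comp_fst_assoc, pullbackSpecIso_inv_snd_assoc, ← Spec.map_comp_assoc]
    refine congrArg (fun φ => Spec.map φ ≫ ι) ?_
    ext a
    exact (he a).symm
  · simp only [chartLift_snd, Category.assoc, pullback.lift_snd, Category.comp_id]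
    rw [pullbackSymmetry_hom_comp_snd, pullbackSpecIso_inv_fst, ← Spec.map_comp]
    congr 1
    ext a
    exact (e.commutes a).symm

theorem isIso_specMap_algEquiv (e : R ⊗[k] A ≃ₐ[R] S) :
    IsIso (Spec.map (CommRingCat.ofHom e.toRingEquiv.toRingHom)) := by
  have : IsIso (CommRingCat.ofHom e.toRingEquiv.toRingHom) :=
    inferInstanceAs (IsIso e.toRingEquiv.toCommRingCatIso.hom)
  infer_instance

/-- A chart of the base change is an open immersion. -/
theorem isOpenImmersion_chartLift [IsOpenImmersion ι] (hι : ι ≫ c = str k A) (g : A →ₐ[k] S)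
    (e : R ⊗[k] A ≃ₐ[R] S) (he : ∀ a, e (1 ⊗ₜ a) = g a) :
    IsOpenImmersion (chartLift (R := R) hι g) := by
  have := isIso_specMap_algEquiv e
  rw [chartLift_eq hι g e he]
  infer_instance

/-- The image of a chart of the base change is the preimage of the image of the chart. -/
theorem range_chartLift (hι : ι ≫ c = str k A) (g : A →ₐ[k] S)
    (e : R ⊗[k] A ≃ₐ[R] S) (he : ∀ a, e (1 ⊗ₜ a) = g a) :
    Set.range (chartLift (R := R) hι g) = pullback.fst c (str k R) ⁻¹' Set.range ι := by
  have := isIso_specMap_algEquiv e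
  rw [chartLift_eq hι g e he, Scheme.Hom.comp_base, TopCat.coe_comp,
    Set.range_comp, Set.range_eq_univ.mpr (Scheme.Hom.surjective (Spec.map _ ≫ _)), Set.image_univ,
    Scheme.Pullback.range_map]
  simp

end Lift

variable {C : Scheme.{u}} {c : C ⟶ Spec (CommRingCat.of k)}
  {ε : SchemeHomOver (𝟙 (Spec (CommRingCat.of k))) c} (G : GeomModel c ε)
  (R : Type u) [CommRing R] [Algebra k R]

/-- The first chart over `Spec R`. -/
def GeomModel.jp : Spec (CommRingCat.of (G.model.Cp R)) ⟶ pullback c (str k R) :=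
  chartLift G.ιp_c (G.model.toCp R)

/-- The second chart over `Spec R`. -/
def GeomModel.jm : Spec (CommRingCat.of (G.model.Cm R)) ⟶ pullback c (str k R) :=
  chartLift G.ιm_c (G.model.toCm R)

/-- The overlap chart over `Spec R`. -/
def GeomModel.j₀ : Spec (CommRingCat.of (G.model.A R)) ⟶ pullback c (str k R) :=
  chartLift G.ι₀_c (G.model.toA R)

instance isOpenImmersion_jp : IsOpenImmersion (G.jp R) :=
  isOpenImmersion_chartLift G.ιp_c _ (G.model.cpEquiv R) fun _ => rfl

instance isOpenImmersion_jm : IsOpenImmersion (G.jm R) :=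
  isOpenImmersion_chartLift G.ιm_c _ (G.model.cmEquiv R) fun _ => rfl

instance isOpenImmersion_j₀ : IsOpenImmersion (G.j₀ R) :=
  isOpenImmersion_chartLift G.ι₀_c _ AlgEquiv.refl fun _ => rfl

theorem GeomModel.val_jp :
    Spec.map (CommRingCat.ofHom (G.model.Cp R).val.toRingHom) ≫ G.jp R = G.j₀ R := by
  apply pullback.hom_ext
  · rw [Category.assoc, GeomModel.jp, GeomModel.j₀, chartLift_fst, chartLift_fst, ← G.incl_p,
      ← Spec.map_comp_assoc, ← Spec.map_comp_assoc]
    congr 2
  · rw [Category.assoc, GeomModel.jp, GeomModel.j₀, chartLift_snd, chartLift_snd,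
      ← Spec.map_comp]
    congr 1

theorem GeomModel.val_jm :
    Spec.map (CommRingCat.ofHom (G.model.Cm R).val.toRingHom) ≫ G.jm R = G.j₀ R := by
  apply pullback.hom_ext
  · rw [Category.assoc, GeomModel.jm, GeomModel.j₀, chartLift_fst, chartLift_fst, ← G.incl_m,
      ← Spec.map_comp_assoc, ← Spec.map_comp_assoc]
    congr 2
  · rw [Category.assoc, GeomModel.jm, GeomModel.j₀, chartLift_snd, chartLift_snd,
      ← Spec.map_comp]
    congr 1

/-- The first open over `Spec R`. -/
def GeomModel.opensP : (pullback c (str k R)).Opens := G.jp R ''ᵁ ⊤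

/-- The second open over `Spec R`. -/
def GeomModel.opensM : (pullback c (str k R)).Opens := G.jm R ''ᵁ ⊤

/-- The overlap over `Spec R`. -/
def GeomModel.opens₀ : (pullback c (str k R)).Opens := G.j₀ R ''ᵁ ⊤

/-- Functions on the spectrum of `S` as functions on its image in `X`. -/
def secHom {X : Scheme.{u}} {S : Type u} [CommRing S] (j : Spec (CommRingCat.of S) ⟶ X)
    [IsOpenImmersion j] : S →+* Γ(X, j ''ᵁ ⊤) :=
  ((Scheme.ΓSpecIso (CommRingCat.of S)).inv ≫ (j.appIso ⊤).inv).hom

theorem image_top_le_of_comp {X : Scheme.{u}} {Y Z : Scheme.{u}} (f : Y ⟶ Z) (j : Z ⟶ X)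
    (i : Y ⟶ X) [IsOpenImmersion j] [IsOpenImmersion i] (h : f ≫ j = i) : i ''ᵁ ⊤ ≤ j ''ᵁ ⊤ := by
  intro x hx
  rw [Scheme.Hom.image_top_eq_opensRange] at hx ⊢
  obtain ⟨y, rfl⟩ := hx
  exact ⟨f.base y, by rw [← h]; rfl⟩

theorem GeomModel.opens₀_le_p : G.opens₀ R ≤ G.opensP R :=
  image_top_le_of_comp _ (G.jp R) (G.j₀ R) (G.val_jp R)

theorem GeomModel.opens₀_le_m : G.opens₀ R ≤ G.opensM R :=
  image_top_le_of_comp _ (G.jm R) (G.j₀ R) (G.val_jm R)

theorem GeomModel.image_le_p : G.j₀ R ''ᵁ ⊤ ≤ G.jp R ''ᵁ ⊤ := G.opens₀_le_p R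

theorem GeomModel.image_le_m : G.j₀ R ''ᵁ ⊤ ≤ G.jm R ''ᵁ ⊤ := G.opens₀_le_m R

/-- An identification of `T` with the sections of `L` on the three opens. -/
structure TripleIso (L : (pullback c (str k R)).Modules) (T : Triple G.model R) where
  /-- The sections on the overlap. -/
  toEquiv : T.M ≃+ Γ(L, G.j₀ R ''ᵁ ⊤)
  map_smul : ∀ (a : G.model.A R) (v : T.M), toEquiv (a • v) = secHom (G.j₀ R) a • toEquiv v
  mem_p : ∀ v, v ∈ T.p ↔ ∃ s : Γ(L, G.jp R ''ᵁ ⊤), resSec L (G.image_le_p R) s = toEquiv v
  mem_m : ∀ v, v ∈ T.m ↔ ∃ s : Γ(L, G.jm R ''ᵁ ⊤), resSec L (G.image_le_m R) s = toEquiv v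

/-- `T` is the triple of sections of `L`. -/
def TripleOf (L : (pullback c (str k R)).Modules) (T : Triple G.model R) : Prop :=
  Nonempty (TripleIso G R L T)

end Fermat.Agent.RelPic
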