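import Fermat.Agent.RelPic.Dict.Charts
import Fermat.Agent.RelPic.Functor.Points

/-!
# The cover by the charts, change of the base ring, and the marked section
-/

set_option autoImplicit false

noncomputable section

universe u

open CategoryTheory CategoryTheory.Limits AlgebraicGeometry NeronModelInfra
open scoped TensorProduct

namespace Fermat.Agent.RelPic

variable {k : Type u} [Field k]

section Algebra

variable (C : Model k) {R R' : Type u} [CommRing R] [Algebra k R] [CommRing R'] [Algebra k R']
  (φ : R →ₐ[k] R')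

end Algebra

variable {C : Scheme.{u}} {c : C ⟶ Spec (CommRingCat.of k)}
  {ε : SchemeHomOver (𝟙 (Spec (CommRingCat.of k))) c} (G : GeomModel c ε)
  (R : Type u) [CommRing R] [Algebra k R]

theorem GeomModel.opensP_eq : G.opensP R = pullback.fst c (str k R) ⁻¹ᵁ G.ιp.opensRange := by
  rw [GeomModel.opensP, Scheme.Hom.image_top_eq_opensRange]
  exact TopologicalSpace.Opens.ext
    (range_chartLift G.ιp_c _ (G.model.cpEquiv R) fun _ => rfl)

theorem GeomModel.opensM_eq : G.opensM R = pullback.fst c (str k R) ⁻¹ᵁ G.ιm.opensRange := by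
  rw [GeomModel.opensM, Scheme.Hom.image_top_eq_opensRange]
  exact TopologicalSpace.Opens.ext
    (range_chartLift G.ιm_c _ (G.model.cmEquiv R) fun _ => rfl)

theorem GeomModel.opens₀_eq : G.opens₀ R = pullback.fst c (str k R) ⁻¹ᵁ G.ι₀.opensRange := by
  rw [GeomModel.opens₀, Scheme.Hom.image_top_eq_opensRange]
  exact TopologicalSpace.Opens.ext
    (range_chartLift G.ι₀_c _ AlgEquiv.refl fun _ => rfl)

/-- The two charts cover the curve over `Spec R`. -/
theorem GeomModel.opensP_sup_opensM : G.opensP R ⊔ G.opensM R = ⊤ := by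
  rw [G.opensP_eq, G.opensM_eq, ← Scheme.Hom.preimage_sup, G.cover, Scheme.Hom.preimage_top]

/-- The two charts meet in the overlap chart. -/
theorem GeomModel.opensP_inf_opensM : G.opensP R ⊓ G.opensM R = G.opens₀ R := by
  rw [G.opensP_eq, G.opensM_eq, G.opens₀_eq, ← Scheme.Hom.preimage_inf, G.inter]

variable {R} {R' : Type u} [CommRing R'] [Algebra k R'] (φ : R →ₐ[k] R')

/-- The curve over a larger base ring. -/
abbrev bcMap (c : C ⟶ Spec (CommRingCat.of k)) : pullback c (str k R') ⟶ pullback c (str k R) :=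
  RelPicard.baseChangeSnd c (specOver φ)

theorem bcMap_fst : bcMap φ c ≫ pullback.fst c (str k R) = pullback.fst c (str k R') :=
  (pullback.lift_fst _ _ _).trans (Category.comp_id _)

theorem bcMap_snd : bcMap φ c ≫ pullback.snd c (str k R) = pullback.snd c (str k R') ≫ specHom φ :=
  pullback.lift_snd _ _ _

theorem GeomModel.preimage_opensP : bcMap φ c ⁻¹ᵁ G.opensP R = G.opensP R' := by
  rw [G.opensP_eq, G.opensP_eq, ← Scheme.Hom.comp_preimage, bcMap_fst]

theorem GeomModel.preimage_opensM : bcMap φ c ⁻¹ᵁ G.opensM R = G.opensM R' := by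
  rw [G.opensM_eq, G.opensM_eq, ← Scheme.Hom.comp_preimage, bcMap_fst]

theorem GeomModel.preimage_opens₀ : bcMap φ c ⁻¹ᵁ G.opens₀ R = G.opens₀ R' := by
  rw [G.opens₀_eq, G.opens₀_eq, ← Scheme.Hom.comp_preimage, bcMap_fst]

theorem GeomModel.mapA_j₀ : specHom (G.model.mapA φ) ≫ G.j₀ R = G.j₀ R' ≫ bcMap φ c := by
  apply pullback.hom_ext
  · rw [Category.assoc, Category.assoc, bcMap_fst, GeomModel.j₀, GeomModel.j₀, chartLift_fst,
      chartLift_fst, ← Spec.map_comp_assoc]
    refine congrArg (fun f => Spec.map f ≫ G.ι₀) ?_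
    ext a
    exact congrArg (· ⊗ₜ[k] _) (map_one φ)
  · rw [Category.assoc, Category.assoc, bcMap_snd, GeomModel.j₀, GeomModel.j₀, chartLift_snd,
      chartLift_snd_assoc, ← Spec.map_comp, ← Spec.map_comp]
    congr 1

variable (R)

/-- The marked section is evaluation at the marked point in the overlap chart. -/
theorem GeomModel.evalR_j₀ :
    Spec.map (CommRingCat.ofHom (G.model.evalR R G.e).toRingHom) ≫ G.j₀ R =
      RelPicard.rigSection c (str k R) ε := by
  apply pullback.hom_ext
  · rw [Category.assoc, GeomModel.j₀, chartLift_fst, RelPicard.rigSection, pullback.lift_fst,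
      ← G.e_spec, ← Spec.map_comp_assoc, ← Spec.map_comp_assoc]
    refine congrArg (fun f => Spec.map f ≫ G.ι₀) ?_
    ext a
    simp [Model.evalR, Model.toA, Algebra.algebraMap_eq_smul_one]
  · rw [Category.assoc, GeomModel.j₀, chartLift_snd, RelPicard.rigSection, pullback.lift_snd,
      ← Spec.map_comp]
    rw [← Spec.map_id]
    congr 1
    ext a
    exact (G.model.evalR R G.e).commutes a

theorem GeomModel.range_rigSection (x : Spec (CommRingCat.of R)) :
    RelPicard.rigSection c (str k R) ε x ∈ G.opens₀ R := by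
  rw [← G.evalR_j₀, GeomModel.opens₀, Scheme.Hom.image_top_eq_opensRange]
  exact ⟨_, rfl⟩

end Fermat.Agent.RelPic
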