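import Fermat.Agent.RelPic.Dict.Sections

/-!
# Isomorphisms of invertible modules are isomorphisms of triples
-/

set_option autoImplicit false
set_option synthInstance.maxHeartbeats 400000

noncomputable section

universe u

open CategoryTheory CategoryTheory.Limits AlgebraicGeometry NeronModelInfra

namespace Fermat.Agent.RelPic

section Chart

variable {X : Scheme.{u}} {L L' : X.Modules}

/-- A map on a basic open preserving the sections which extend gives a morphism on the affine
open. -/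
theorem exists_isoOn_of_basicOpen {U W : X.Opens} (hU : IsAffineOpen U)
    (hL : Scheme.Modules.IsInvertible L) (hL' : Scheme.Modules.IsInvertible L') (f : Γ(X, U))
    (hW : X.basicOpen f = W) (h : W ≤ U) (hinj : Function.Injective (resSec L h))
    (hinj' : Function.Injective (resSec L' h)) (g : Γ(L, W) ≃+ Γ(L', W))
    (hg : ∀ (r : Γ(X, W)) u, g (r • u) = r • g u)
    (hmem : ∀ u, (∃ s, resSec L h s = u) ↔ ∃ s', resSec L' h s' = g u) :
    ∃ e : IsoOn L L' U, ∀ u, e.hom.app W h u = g u := by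
  have hex : ∀ s, ∃ s', resSec L' h s' = g (resSec L h s) := fun s => (hmem _).mp ⟨s, rfl⟩
  choose gp hgp using hex
  let gl : Γ(L, U) →ₗ[Γ(X, U)] Γ(L', U) :=
    { toFun := gp
      map_add' := fun s t => hinj' (by rw [hgp, map_add, map_add, map_add, hgp, hgp])
      map_smul' := fun r s => hinj' (by rw [RingHom.id_apply, hgp, resSec_smul, hg, resSec_smul, hgp]) }
  have hbij : Function.Bijective gl := ⟨fun s t hst => hinj (g.injective (by
      rw [← hgp, ← hgp]; exact congrArg (resSec L' h) hst)), fun s' => by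
    obtain ⟨u, hu⟩ := g.surjective (resSec L' h s')
    obtain ⟨s, hs⟩ := (hmem u).mpr ⟨s', hu.symm⟩
    exact ⟨s, hinj' ((hgp s).trans (by rw [hs, hu]))⟩⟩
  refine ⟨affineIso hU (localizes_of_isInvertible hU hL) (localizes_of_isInvertible hU hL')
    (LinearEquiv.ofBijective gl hbij), fun u => ?_⟩
  subst hW
  obtain ⟨n, s, hs⟩ := exists_resSec_eq_pow_smul hU hL f rfl h u
  have h1 := affineIso_app hU (localizes_of_isInvertible hU hL) (localizes_of_isInvertible hU hL')
    (LinearEquiv.ofBijective gl hbij) (X.basicOpen f) h s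
  rw [hs, map_smul] at h1
  have h2 := h1.trans ((hgp s).trans ((congrArg g hs).trans (hg _ u)))
  exact ((isUnit_resRing (f := f) (le_refl _)).pow n).smul_left_cancel.mp h2

/-- Isomorphisms on two affine opens which agree on the overlap glue. -/
theorem nonempty_iso_of_two {U V W : X.Opens} (hU : IsAffineOpen U)
    (hL : Scheme.Modules.IsInvertible L) (hcov : U ⊔ V = ⊤) (hUW : W ≤ U) (hVW : W ≤ V)
    (hinf : U ⊓ V ≤ W) (eU : IsoOn L L' U) (eV : IsoOn L L' V)
    (h : ∀ u, eU.hom.app W hUW u = eV.hom.app W hVW u) : Nonempty (L ≅ L') := by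
  have key : eU.restrict (inf_le_left : U ⊓ V ≤ U) = eV.restrict inf_le_right :=
    IsoOn.ext_hom (HomOn.ext_of_localizes hU (localizes_of_isInvertible hU hL) inf_le_left
      fun t => by
        rw [← resSec_resSec L hUW hinf t]
        show eU.hom.app (U ⊓ V) _ _ = eV.hom.app (U ⊓ V) _ _
        rw [eU.hom.natural W (U ⊓ V) hUW hinf, eV.hom.natural W (U ⊓ V) hVW hinf, h])
  let e : ∀ b : Bool, IsoOn L L' (cond b U V) := fun b => match b with
    | true => eU
    | false => eV
  refine ⟨(IsoOn.glue (U := ⊤) (fun b : Bool => cond b U V) (fun _ => le_top) ?_ e ?_).toIso⟩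
  · rw [← hcov]
    exact sup_le (le_iSup_of_le true le_rfl) (le_iSup_of_le false le_rfl)
  · rintro (_ | _) (_ | _)
    · rfl
    · exact (congrArg (fun z : IsoOn L L' (U ⊓ V) => z.restrict (inf_comm V U).le) key).symm
    · exact key
    · rfl

/-- An isomorphism preserves the sections which extend. -/
theorem exists_resSec_iff_of_iso (φ : L ≅ L') {V W : X.Opens} (h : W ≤ V) (x : Γ(L, W)) :
    (∃ s, resSec L h s = x) ↔ ∃ s', resSec L' h s' = φ.hom.app W x := by
  refine ⟨fun ⟨s, hs⟩ => ⟨φ.hom.app V s, ?_⟩, fun ⟨s, hs⟩ => ⟨φ.inv.app V s, ?_⟩⟩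
  · rw [← app_resSec φ.hom h, hs]
  · rw [← app_resSec φ.inv h, hs]
    exact (IsoOn.ofIso φ W).inv_hom_app W le_rfl x

end Chart

variable {k : Type u} [Field k] {C : Scheme.{u}} {c : C ⟶ Spec (CommRingCat.of k)}
  {ε : SchemeHomOver (𝟙 (Spec (CommRingCat.of k))) c} (G : GeomModel c ε)
  {R : Type u} [CommRing R] [Algebra k R] {L L' : (pullback c (str k R)).Modules}
  {T T' : Triple G.model R}

/-- Isomorphic modules have isomorphic triples. -/
theorem nonempty_equiv_of_iso (φ : L ≅ L') (D : TripleIso G R L T) (D' : TripleIso G R L' T') :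
    Nonempty (T.Equiv T') := by
  let o := (IsoOn.ofIso φ (G.j₀ R ''ᵁ ⊤)).appEquiv (G.j₀ R ''ᵁ ⊤) le_rfl
  let F : T.M ≃+ T'.M := (D.toEquiv.trans o.toAddEquiv).trans D'.toEquiv.symm
  have hF : ∀ v, D'.toEquiv (F v) = o (D.toEquiv v) := fun v =>
    D'.toEquiv.apply_symm_apply (o (D.toEquiv v))
  have hFs : ∀ (a : G.model.A R) v, F (a • v) = a • F v := fun a v => D'.toEquiv.injective (by
    rw [hF, D.map_smul, map_smul, D'.map_smul, hF])
  refine ⟨⟨{ F with map_smul' := hFs }, fun v => ?_, fun v => ?_⟩⟩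
  · refine (D.mem_p v).trans ((exists_resSec_iff_of_iso φ _ _).trans ?_)
    rw [D'.mem_p]
    exact Iff.of_eq (congrArg (fun z => ∃ s, resSec L' (G.image_le_p R) s = z) (hF v).symm)
  · refine (D.mem_m v).trans ((exists_resSec_iff_of_iso φ _ _).trans ?_)
    rw [D'.mem_m]
    exact Iff.of_eq (congrArg (fun z => ∃ s, resSec L' (G.image_le_m R) s = z) (hF v).symm)

/-- Invertible modules with isomorphic triples are isomorphic. -/
theorem nonempty_iso_of_equiv (hL : Scheme.Modules.IsInvertible L)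
    (hL' : Scheme.Modules.IsInvertible L') (D : TripleIso G R L T) (D' : TripleIso G R L' T')
    (e : T.Equiv T') : Nonempty (L ≅ L') := by
  let g : Γ(L, G.j₀ R ''ᵁ ⊤) ≃+ Γ(L', G.j₀ R ''ᵁ ⊤) :=
    (D.toEquiv.symm.trans e.toEquiv.toAddEquiv).trans D'.toEquiv
  have hgv : ∀ v, g (D.toEquiv v) = D'.toEquiv (e.toEquiv v) := fun v =>
    congrArg (fun w => D'.toEquiv (e.toEquiv w)) (D.toEquiv.symm_apply_apply v)
  have hg : ∀ r u, g (r • u) = r • g u := fun r u => by
    obtain ⟨a, rfl⟩ := (secHom_bijective (G.j₀ R)).surjective r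
    obtain ⟨v, rfl⟩ := D.toEquiv.surjective u
    rw [← D.map_smul, hgv, hgv, map_smul, D'.map_smul]
  obtain ⟨ep, hep⟩ := exists_isoOn_of_basicOpen (isAffineOpen_image_top (G.jp R)) hL hL' _
    (G.basicOpen_xP R) (G.image_le_p R) (G.resSec_p_injective hL) (G.resSec_p_injective hL') g hg
    fun u => by
      obtain ⟨v, rfl⟩ := D.toEquiv.surjective u
      rw [hgv]
      exact (D.mem_p v).symm.trans ((e.mem_p v).trans (D'.mem_p _))
  obtain ⟨em, hem⟩ := exists_isoOn_of_basicOpen (isAffineOpen_image_top (G.jm R)) hL hL' _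
    (G.basicOpen_yM R) (G.image_le_m R) (G.resSec_m_injective hL) (G.resSec_m_injective hL') g hg
    fun u => by
      obtain ⟨v, rfl⟩ := D.toEquiv.surjective u
      rw [hgv]
      exact (D.mem_m v).symm.trans ((e.mem_m v).trans (D'.mem_m _))
  exact nonempty_iso_of_two (isAffineOpen_image_top (G.jp R)) hL (G.opensP_sup_opensM R)
    (G.image_le_p R) (G.image_le_m R) (G.opensP_inf_opensM R).le ep em fun u =>
    (hep u).trans (hem u).symm

/-- Isomorphic invertible modules have isomorphic triples, and conversely. -/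
theorem nonempty_iso_iff_equiv (hL : Scheme.Modules.IsInvertible L)
    (hL' : Scheme.Modules.IsInvertible L') (hT : TripleOf G R L T) (hT' : TripleOf G R L' T') :
    Nonempty (L ≅ L') ↔ Nonempty (T.Equiv T') :=
  ⟨fun ⟨φ⟩ => nonempty_equiv_of_iso G φ hT.some hT'.some,
    fun ⟨e⟩ => nonempty_iso_of_equiv G hL hL' hT.some hT'.some e⟩

end Fermat.Agent.RelPic
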