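import Fermat.Agent.RelPic.Dict.Rigidified

/-!
# The triple of a rigidified bundle is rigid
-/

set_option autoImplicit false
set_option synthInstance.maxHeartbeats 400000
set_option linter.style.haveILetI false

noncomputable section

universe u

open CategoryTheory CategoryTheory.Limits AlgebraicGeometry AlgebraicGeometry.RelPicard
  NeronModelInfra TopologicalSpace Opposite

namespace Fermat.Agent.RelPic

/-- A trivialised pullback to an affine scheme, along a map surjective on functions, gives a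
surjective semilinear functional. -/
theorem exists_functional_of_iso_unit {X Y : Scheme.{u}} (ψ : Y ⟶ X) {L : X.Modules}
    (hL : Scheme.Modules.IsInvertible L) {U : X.Opens} (hU : IsAffineOpen U)
    (hY : IsAffineOpen (⊤ : Y.Opens)) (h : ⊤ ≤ ψ ⁻¹ᵁ U)
    (hψ : Function.Surjective (ψ.appLE U ⊤ h))
    (φ : (Scheme.Modules.pullback ψ).obj L ≅ unitMod Y) :
    ∃ r : Γ(L, U) →+ Γ(Y, ⊤), (∀ (a : Γ(X, U)) (x : Γ(L, U)),
      r (a • x) = ψ.appLE U ⊤ h a * r x) ∧ Function.Surjective r := by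
  let e := ((IsoOn.ofIso φ ⊤).appEquiv ⊤ le_rfl).trans (toUnit ⊤).symm
  refine ⟨e.toAddEquiv.toAddMonoidHom.comp (pbLE ψ L h), fun a x => ?_, fun y => ?_⟩
  · show e (pbLE ψ L h (a • x)) = _
    rw [pbLE_smul, map_smul]
    rfl
  · obtain ⟨z, rfl⟩ := e.surjective y
    have hz : z ∈ Submodule.span Γ(Y, ⊤) (Set.range (pbLE ψ L h)) := by
      rw [span_pbLE ψ hU hY h hL]
      trivial
    obtain ⟨x, hx⟩ : ∃ x, pbLE ψ L h x = z := by
      induction hz using Submodule.span_induction with
      | mem z hz => exact hz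
      | zero => exact ⟨0, map_zero _⟩
      | add z z' _ _ hz hz' =>
        obtain ⟨x, rfl⟩ := hz
        obtain ⟨x', rfl⟩ := hz'
        exact ⟨x + x', map_add _ _ _⟩
      | smul b z _ hz =>
        obtain ⟨x, rfl⟩ := hz
        obtain ⟨a, rfl⟩ := hψ b
        exact ⟨a • x, pbLE_smul ψ L h a x⟩
    exact ⟨x, congrArg e hx⟩

variable {k : Type u} [Field k] {C : Scheme.{u}} {c : C ⟶ Spec (CommRingCat.of k)}
  {ε : SchemeHomOver (𝟙 (Spec (CommRingCat.of k))) c} (G : GeomModel c ε)
  {R : Type u} [CommRing R] [Algebra k R]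

/-- The triple of a rigidified bundle is rigid. -/
theorem GeomModel.isRigid_of_tripleOf (M : RigidifiedLineBundle c ε (str k R))
    {T : Triple G.model R} (hT : TripleOf G R M.L T) : T.IsRigid G.e := by
  obtain ⟨D⟩ := hT
  have hle : (⊤ : (Spec (CommRingCat.of R)).Opens) ≤
      rigSection c (str k R) ε ⁻¹ᵁ G.j₀ R ''ᵁ ⊤ := fun x _ => G.range_rigSection R x
  let σR := (Scheme.ΓSpecIso (CommRingCat.of R)).symm.commRingCatIsoToRingEquiv
  have hσ : ∀ a, (rigSection c (str k R) ε).appLE (G.j₀ R ''ᵁ ⊤) ⊤ hle (secHom (G.j₀ R) a) =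
      σR (G.model.evalR R G.e a) := fun a =>
    appLE_secHom_affine (G.j₀ R) (G.model.evalR R G.e).toRingHom _ (G.evalR_j₀ R) hle a
  have hψ : Function.Surjective ((rigSection c (str k R) ε).appLE (G.j₀ R ''ᵁ ⊤) ⊤ hle) := by
    intro y
    refine ⟨secHom (G.j₀ R) (algebraMap R (G.model.A R) (σR.symm y)), ?_⟩
    rw [hσ, AlgHom.commutes]
    exact σR.apply_symm_apply y
  obtain ⟨r, hr, hsurj⟩ := exists_functional_of_iso_unit (rigSection c (str k R) ε) M.isInvertible
    (isAffineOpen_image_top (G.j₀ R)) (isAffineOpen_top _) hle hψ M.rigidified.some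
  let r₀ : T.M →+ R := σR.symm.toRingHom.toAddMonoidHom.comp (r.comp D.toEquiv.toAddMonoidHom)
  have hr₀ : ∀ (a : G.model.A R) v, r₀ (a • v) = G.model.evalR R G.e a * r₀ v := fun a v => by
    show σR.symm (r (D.toEquiv (a • v))) = _ * σR.symm (r (D.toEquiv v))
    rw [D.map_smul, hr, hσ, map_mul, σR.symm_apply_apply]
  refine ⟨{ r₀ with map_smul' := fun s v => ?_ }, hr₀,
    σR.symm.surjective.comp (hsurj.comp D.toEquiv.surjective)⟩
  show r₀ (s • v) = s * r₀ v
  rw [T.smul_R_eq, hr₀, AlgHom.commutes]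
  rfl

/-- Every rigidified bundle over an affine base has a rigid triple. -/
theorem GeomModel.exists_tripleOf (M : RigidifiedLineBundle c ε (str k R)) :
    ∃ T : Triple G.model R, TripleOf G R M.L T ∧ T.IsRigid G.e := by
  obtain ⟨T, hT⟩ := exists_tripleOf_of_isInvertible G M.isInvertible
  exact ⟨T, hT, G.isRigid_of_tripleOf M hT⟩

end Fermat.Agent.RelPic

end
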