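import Fermat.Agent.RelPic.Dict.PullbackTriple
import Fermat.Agent.RelPic.Dict.RigidSections
import Fermat.Agent.RelPic.Functor.Points

/-!
# The dictionary between rigidified bundles and rigid triples
-/

set_option autoImplicit false
set_option synthInstance.maxHeartbeats 400000

noncomputable section

universe u

open CategoryTheory CategoryTheory.Limits AlgebraicGeometry AlgebraicGeometry.RelPicard NeronModelInfra

namespace Fermat.Agent.RelPic

variable {k : Type u} [Field k] {C : Scheme.{u}} {c : C ⟶ Spec (CommRingCat.of k)}
  {ε : SchemeHomOver (𝟙 (Spec (CommRingCat.of k))) c}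

/-- Every geometric model has the dictionary properties. -/
theorem dictProps (G : GeomModel c ε) : DictProps G where
  exists_tripleOf _ _ _ M := G.exists_tripleOf M
  iso_iff _ _ _ _ _ _ _ hL hL' hT hT' := nonempty_iso_iff_equiv G hL hL' hT hT'
  bc_iff _ _ _ _ _ _ φ _ _ _ hL hT := tripleOf_pullback_iff G φ hL hT
  exists_rigidified _ _ _ T hT := G.exists_rigidified T hT
  exists_appTop_eq R _ _ a := G.exists_appTop_eq R a

end Fermat.Agent.RelPic

end
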