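import Fermat.Agent.RelPic.Dict.Iso
import Fermat.Agent.RelPic.Modules.Pullback

/-!
# The triple of a pulled back bundle is the base change of the triple
-/

set_option autoImplicit false
set_option synthInstance.maxHeartbeats 400000
set_option linter.style.haveILetI false

noncomputable section

universe u

open CategoryTheory CategoryTheory.Limits AlgebraicGeometry NeronModelInfra
open scoped TensorProduct

namespace Fermat.Agent.RelPic

variable {k : Type u} [Field k]

section Algebra

variable {C : Model k} {R R' : Type u} [CommRing R] [Algebra k R] [CommRing R'] [Algebra k R']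
  (φ : R →ₐ[k] R') {T : Triple C R} {T' : Triple C R'} (F : T.M →+ T'.M)
  (hF : ∀ (a : C.A R) v, F (a • v) = C.mapA φ a • F v)

include hF in
theorem tmul_smul_semilinear (r : R') (a : C.A₀) (v : T.M) :
    (r ⊗ₜ[k] a : C.A R') • F v = r • F (((1 : R) ⊗ₜ[k] a : C.A R) • v) := by
  rw [hF, T'.smul_R_eq]
  refine Eq.trans ?_ (mul_smul (algebraMap R' (C.A R') r) _ (F v))
  congr 1
  rw [C.mapA_tmul, map_one, Algebra.TensorProduct.algebraMap_apply,
    Algebra.TensorProduct.tmul_mul_tmul, mul_one, one_mul]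
  rfl

include hF in
/-- The span of the image of the first lattice is stable under the first chart ring. -/
theorem smul_mem_span_image_p (c : C.Cp R') {x : T'.M}
    (hx : x ∈ Submodule.span R' (F '' (T.p : Set T.M))) :
    (c : C.A R') • x ∈ Submodule.span R' (F '' (T.p : Set T.M)) := by
  refine Submodule.span_induction
    (p := fun x _ => (c : C.A R') • x ∈ Submodule.span R' (F '' (T.p : Set T.M))) ?_ ?_ ?_ ?_ hx
  · rintro _ ⟨v, hv, rfl⟩
    refine C.Cp_induction
      (P := fun c => c • F v ∈ Submodule.span R' (F '' (T.p : Set T.M))) c.2 (fun r a ha => ?_)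
      fun _ _ h h' => by rw [add_smul]; exact add_mem h h'
    rw [tmul_smul_semilinear φ F hF]
    exact Submodule.smul_mem _ _
      (Submodule.subset_span ⟨_, T.smul_mem_p (C.tmul_mem_Cp R 1 ha) hv, rfl⟩)
  · rw [smul_zero]; exact zero_mem _
  · intro y z _ _ hy hz; rw [smul_add]; exact add_mem hy hz
  · intro r y _ hy; rw [smul_comm]; exact Submodule.smul_mem _ _ hy

include hF in
/-- The span of the image of the second lattice is stable under the second chart ring. -/
theorem smul_mem_span_image_m (c : C.Cm R') {x : T'.M}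
    (hx : x ∈ Submodule.span R' (F '' (T.m : Set T.M))) :
    (c : C.A R') • x ∈ Submodule.span R' (F '' (T.m : Set T.M)) := by
  refine Submodule.span_induction
    (p := fun x _ => (c : C.A R') • x ∈ Submodule.span R' (F '' (T.m : Set T.M))) ?_ ?_ ?_ ?_ hx
  · rintro _ ⟨v, hv, rfl⟩
    letI : Module (C.swap.A R') T'.M := inferInstanceAs (Module (C.A R') T'.M)
    refine C.swap.Cp_induction
      (P := fun c => c • F v ∈ Submodule.span R' (F '' (T.m : Set T.M))) c.2 (fun r a ha => ?_)
      fun _ _ h h' => by rw [add_smul]; exact add_mem h h'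
    rw [tmul_smul_semilinear φ F hF]
    exact Submodule.smul_mem _ _
      (Submodule.subset_span ⟨_, T.smul_mem_m (C.tmul_mem_Cm R 1 ha) hv, rfl⟩)
  · rw [smul_zero]; exact zero_mem _
  · intro y z _ _ hy hz; rw [smul_add]; exact add_mem hy hz
  · intro r y _ hy; rw [smul_comm]; exact Submodule.smul_mem _ _ hy

end Algebra

section Geometry

variable {X X' : Scheme.{u}} (ψ : X' ⟶ X) {L : X.Modules} (hL : Scheme.Modules.IsInvertible L)
  {U W : X.Opens} {U' W' : X'.Opens}

include hL in
/-- Pulled back sections generate the sections on a pulled back chart. -/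
theorem pbLE_induction (hU : IsAffineOpen U) (hU' : IsAffineOpen U') (h : U' ≤ ψ ⁻¹ᵁ U)
    {P : Γ((Scheme.Modules.pullback ψ).obj L, U') → Prop} (h0 : P 0)
    (hadd : ∀ s t, P s → P t → P (s + t)) (hsmul : ∀ (b : Γ(X', U')) s, P s → P (b • s))
    (hmem : ∀ s, P (pbLE ψ L h s)) (s' : Γ((Scheme.Modules.pullback ψ).obj L, U')) : P s' := by
  have hs' : s' ∈ Submodule.span Γ(X', U') (Set.range (pbLE ψ L h)) := by
    rw [span_pbLE ψ hU hU' h hL]
    trivial
  exact Submodule.span_induction (p := fun s _ => P s) (by rintro _ ⟨s, rfl⟩; exact hmem s) h0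
    (fun s t _ _ => hadd s t) (fun b s _ => hsmul b s) hs'

end Geometry

variable {C : Scheme.{u}} {c : C ⟶ Spec (CommRingCat.of k)}
  {ε : SchemeHomOver (𝟙 (Spec (CommRingCat.of k))) c} (G : GeomModel c ε)
  {R R' : Type u} [CommRing R] [Algebra k R] [CommRing R'] [Algebra k R'] (φ : R →ₐ[k] R')

/-- Being the triple of a module passes to isomorphic triples. -/
theorem tripleOf_of_equiv {L : (pullback c (str k R)).Modules} {T₁ T : Triple G.model R}
    (e : T₁.Equiv T) (h : TripleOf G R L T₁) : TripleOf G R L T := by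
  obtain ⟨D⟩ := h
  refine ⟨{ toEquiv := e.toEquiv.symm.toAddEquiv.trans D.toEquiv
            map_smul := fun a v => ?_
            mem_p := fun v => (e.symm.mem_p v).trans (D.mem_p _)
            mem_m := fun v => (e.symm.mem_m v).trans (D.mem_m _) }⟩
  show D.toEquiv (e.toEquiv.symm (a • v)) = _
  rw [map_smul, D.map_smul]
  rfl

set_option maxHeartbeats 800000 in
/-- The triple of the pullback is a base change of the triple. -/
theorem nonempty_bc_of_tripleOf {L : (pullback c (str k R)).Modules}
    (hL : Scheme.Modules.IsInvertible L) {T : Triple G.model R} {T' : Triple G.model R'}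
    (hT : TripleOf G R L T)
    (hT' : TripleOf G R' ((Scheme.Modules.pullback (bcMap φ c)).obj L) T') :
    Nonempty (Triple.BC φ T T') := by
  obtain ⟨D⟩ := hT
  obtain ⟨D'⟩ := hT'
  have h₀ : G.j₀ R' ''ᵁ ⊤ ≤ bcMap φ c ⁻¹ᵁ G.j₀ R ''ᵁ ⊤ := (G.preimage_opens₀ φ).ge
  have hp : G.jp R' ''ᵁ ⊤ ≤ bcMap φ c ⁻¹ᵁ G.jp R ''ᵁ ⊤ := (G.preimage_opensP φ).ge
  have hm : G.jm R' ''ᵁ ⊤ ≤ bcMap φ c ⁻¹ᵁ G.jm R ''ᵁ ⊤ := (G.preimage_opensM φ).ge
  let F : T.M →+ T'.M := D'.toEquiv.symm.toAddMonoidHom.comp
    ((pbLE (bcMap φ c) L h₀).comp D.toEquiv.toAddMonoidHom)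
  have hFv : ∀ v, D'.toEquiv (F v) = pbLE (bcMap φ c) L h₀ (D.toEquiv v) := fun v =>
    D'.toEquiv.apply_symm_apply _
  have hF : ∀ (a : G.model.A R) v, F (a • v) = G.model.mapA φ a • F v := fun a v => by
    apply D'.toEquiv.injective
    rw [hFv, D'.map_smul, hFv, D.map_smul, pbLE_smul]
    exact congrArg (· • pbLE (bcMap φ c) L h₀ (D.toEquiv v))
      (appLE_secHom (G.j₀ R) (G.j₀ R') (bcMap φ c) (G.model.mapA φ).toRingHom (G.mapA_j₀ φ) h₀ a)
  refine ⟨{ toFun := F, map_smul := hF, map_p := fun v hv => ?_, map_m := fun v hv => ?_,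
            span_p := fun v' hv' => ?_, span_m := fun v' hv' => ?_ }⟩
  · obtain ⟨s, hs⟩ := (D.mem_p v).mp hv
    refine (D'.mem_p _).mpr ⟨pbLE (bcMap φ c) L hp s, ?_⟩
    rw [hFv, resSec_pbLE (bcMap φ c) L hp (G.image_le_p R) (G.image_le_p R') h₀, hs]
  · obtain ⟨s, hs⟩ := (D.mem_m v).mp hv
    refine (D'.mem_m _).mpr ⟨pbLE (bcMap φ c) L hm s, ?_⟩
    rw [hFv, resSec_pbLE (bcMap φ c) L hm (G.image_le_m R) (G.image_le_m R') h₀, hs]
  · obtain ⟨s', hs'⟩ := (D'.mem_p v').mp hv'
    have key : ∀ z, D'.toEquiv.symm (resSec _ (G.image_le_p R') z) ∈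
        Submodule.span R' (F '' (T.p : Set T.M)) := by
      refine pbLE_induction (bcMap φ c) hL (isAffineOpen_image_top (G.jp R))
        (isAffineOpen_image_top (G.jp R')) hp ?_ ?_ ?_ fun s => ?_
      · rw [map_zero, map_zero]; exact zero_mem _
      · intro s t hs ht; rw [map_add, map_add]; exact add_mem hs ht
      · intro b s hs
        obtain ⟨b, rfl⟩ := (secHom_bijective (G.jp R')).surjective b
        have e : D'.toEquiv.symm (resSec _ (G.image_le_p R') (secHom (G.jp R') b • s)) =
            (b : G.model.A R') • D'.toEquiv.symm (resSec _ (G.image_le_p R') s) := by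
          apply D'.toEquiv.injective
          rw [D'.map_smul, AddEquiv.apply_symm_apply, AddEquiv.apply_symm_apply, G.resSec_smul_p]
        rw [e]
        exact smul_mem_span_image_p φ F hF b hs
      · refine Submodule.subset_span ⟨D.toEquiv.symm (resSec L (G.image_le_p R) s),
          (D.mem_p _).mpr ⟨s, (D.toEquiv.apply_symm_apply _).symm⟩, D'.toEquiv.injective ?_⟩
        rw [hFv, AddEquiv.apply_symm_apply, AddEquiv.apply_symm_apply,
          resSec_pbLE (bcMap φ c) L hp (G.image_le_p R) (G.image_le_p R') h₀]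
    have := key s'
    rwa [hs', AddEquiv.symm_apply_apply] at this
  · obtain ⟨s', hs'⟩ := (D'.mem_m v').mp hv'
    have key : ∀ z, D'.toEquiv.symm (resSec _ (G.image_le_m R') z) ∈
        Submodule.span R' (F '' (T.m : Set T.M)) := by
      refine pbLE_induction (bcMap φ c) hL (isAffineOpen_image_top (G.jm R))
        (isAffineOpen_image_top (G.jm R')) hm ?_ ?_ ?_ fun s => ?_
      · rw [map_zero, map_zero]; exact zero_mem _
      · intro s t hs ht; rw [map_add, map_add]; exact add_mem hs ht
      · intro b s hs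
        obtain ⟨b, rfl⟩ := (secHom_bijective (G.jm R')).surjective b
        have e : D'.toEquiv.symm (resSec _ (G.image_le_m R') (secHom (G.jm R') b • s)) =
            (b : G.model.A R') • D'.toEquiv.symm (resSec _ (G.image_le_m R') s) := by
          apply D'.toEquiv.injective
          rw [D'.map_smul, AddEquiv.apply_symm_apply, AddEquiv.apply_symm_apply, G.resSec_smul_m]
        rw [e]
        exact smul_mem_span_image_m φ F hF b hs
      · refine Submodule.subset_span ⟨D.toEquiv.symm (resSec L (G.image_le_m R) s),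
          (D.mem_m _).mpr ⟨s, (D.toEquiv.apply_symm_apply _).symm⟩, D'.toEquiv.injective ?_⟩
        rw [hFv, AddEquiv.apply_symm_apply, AddEquiv.apply_symm_apply,
          resSec_pbLE (bcMap φ c) L hm (G.image_le_m R) (G.image_le_m R') h₀]
    have := key s'
    rwa [hs', AddEquiv.symm_apply_apply] at this

/-- A triple is the triple of the pullback iff it is a base change of the triple. -/
theorem tripleOf_pullback_iff {L : (pullback c (str k R)).Modules}
    (hL : Scheme.Modules.IsInvertible L) {T : Triple G.model R} {T' : Triple G.model R'}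
    (hT : TripleOf G R L T) :
    TripleOf G R' ((Scheme.Modules.pullback (bcMap φ c)).obj L) T' ↔
      Nonempty (Triple.BC φ T T') := by
  refine ⟨nonempty_bc_of_tripleOf G φ hL hT, fun ⟨F⟩ => ?_⟩
  have hL' := isInvertible_pullback' (ψ := bcMap φ c) hL
  obtain ⟨F'⟩ := nonempty_bc_of_tripleOf G φ hL hT (tripleOf_secTriple G hL')
  exact tripleOf_of_equiv G (F'.nonempty_equiv F).some (tripleOf_secTriple G hL')

end Fermat.Agent.RelPic

end
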