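import Fermat.Agent.RelPic.Dict.Iso
import Fermat.Agent.RelPic.Modules.Pullback
import Fermat.Agent.RelPic.Modules.Glue

/-!
# The rigidified bundle of a rigid triple

A triple gives invertible modules on the two charts, glued on the overlap; a trivialisation of the
triple along the marked point rigidifies the glued module.
-/

set_option autoImplicit false
set_option linter.style.haveILetI false

noncomputable section

universe u

open CategoryTheory CategoryTheory.Limits AlgebraicGeometry AlgebraicGeometry.RelPicard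
  NeronModelInfra TopologicalSpace Opposite

namespace Fermat.Agent.RelPic

attribute [local instance 1100] Submodule.module Submodule.addCommMonoid

section General

variable {X : Scheme.{u}}

/-- Two modules isomorphic on the intersection of two opens covering the space glue. -/
theorem exists_glue_two {U V : X.Opens} (hcov : U ⊔ V = ⊤) (N N' : X.Modules)
    (e : IsoOn N N' (U ⊓ V)) :
    ∃ (L : X.Modules) (eU : IsoOn L N U) (eV : IsoOn L N' V),
      (eU.restrict inf_le_left).trans e = eV.restrict inf_le_right := by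
  let D : GlueData X :=
    { ι := ULift.{u} Bool
      U := fun b => cond b.down U V
      cover := by
        rw [← hcov]
        exact sup_le (le_iSup_of_le ⟨true⟩ le_rfl) (le_iSup_of_le ⟨false⟩ le_rfl)
      N := fun b => cond b.down N N'
      φ := fun
        | ⟨true⟩, ⟨true⟩ => IsoOn.refl _ _
        | ⟨true⟩, ⟨false⟩ => e
        | ⟨false⟩, ⟨true⟩ => e.symm.restrict (inf_comm V U).le
        | ⟨false⟩, ⟨false⟩ => IsoOn.refl _ _
      cocycle := by
        rintro ⟨_ | _⟩ ⟨_ | _⟩ ⟨_ | _⟩ W hi hj hk x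
        · rfl
        · rfl
        · exact e.hom_inv_app W (le_inf hj hi) x |>.trans rfl
        · rfl
        · rfl
        · exact e.inv_hom_app W (le_inf hi hj) x |>.trans rfl
        · rfl
        · rfl }
  exact ⟨D.glue, D.glueIso ⟨true⟩, D.glueIso ⟨false⟩, D.glueIso_compat ⟨true⟩ ⟨false⟩⟩

/-- Sections on a basic open are the localisation of the sections on the affine open. -/
theorem exists_linearEquiv_of_localizes {U W : X.Opens} (hU : IsAffineOpen U) {N : X.Modules}
    (hN : Localizes N U)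
    (f : Γ(X, U)) (hf : X.basicOpen f = W) (h : W ≤ U) {M : Type u} [AddCommGroup M]
    [Module Γ(X, W) M] (i : Γ(N, U) →+ M) (hi : Function.Injective i)
    (hsmul : ∀ (r : Γ(X, U)) (s : Γ(N, U)), i (r • s) = X.presheaf.map (homOfLE h).op r • i s)
    (hex : ∀ v : M, ∃ (n : ℕ) (s : Γ(N, U)),
      i s = X.presheaf.map (homOfLE h).op (f ^ n) • v) :
    ∃ e : M ≃ₗ[Γ(X, W)] Γ(N, W), ∀ s, e (i s) = resSec N h s := by
  subst hf
  set ρ := fun r : Γ(X, U) => X.presheaf.map (homOfLE h).op r with hρ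
  have hu : ∀ n : ℕ, IsUnit (ρ (f ^ n)) := fun n => by
    show IsUnit (X.presheaf.map (homOfLE h).op (f ^ n))
    rw [map_pow]
    exact (isUnit_resRing (f := f) le_rfl).pow n
  have hP : ∀ x : Γ(N, X.basicOpen f), ∃ v : M, ∃ (n : ℕ) (t : Γ(N, U)),
      resSec N h t = ρ (f ^ n) • x ∧ i t = ρ (f ^ n) • v := fun x => by
    obtain ⟨n, t, ht⟩ := hN.exists_eq f x
    obtain ⟨c, hc⟩ := (hu n).exists_right_inv
    exact ⟨c • i t, n, t, ht, by rw [← mul_smul, hc, one_smul]⟩
  have huniq : ∀ x x' v v', (∃ n t, resSec N h t = ρ (f ^ n) • x ∧ i t = ρ (f ^ n) • v) →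
      (∃ n t, resSec N h t = ρ (f ^ n) • x' ∧ i t = ρ (f ^ n) • v') → x = x' → v = v' := by
    rintro x _ v v' ⟨n, t, ht, hv⟩ ⟨m, t', ht', hv'⟩ rfl
    have h0 : resSec N h (f ^ m • t - f ^ n • t') = 0 := by
      rw [map_sub, resSec_smul, resSec_smul, ht, ht', sub_eq_zero]
      exact smul_comm _ _ _
    obtain ⟨l, hl⟩ := hN.exists_zero f _ h0
    have h1 := congrArg i hl
    rw [smul_sub, map_sub, hsmul, hsmul, hsmul, hsmul, hv, hv', map_zero, sub_eq_zero] at h1
    have h2 := (hu l).smul_left_cancel.mp h1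
    exact (hu n).smul_left_cancel.mp
      ((hu m).smul_left_cancel.mp (h2.trans (smul_comm (ρ (f ^ n)) (ρ (f ^ m)) v')))
  choose g hg using hP
  have hlin : ∀ (x y : Γ(N, X.basicOpen f)), g (x + y) = g x + g y := fun x y => by
    refine huniq _ _ _ _ (hg (x + y)) ?_ rfl
    obtain ⟨n, t, ht, hv⟩ := hg x
    obtain ⟨m, t', ht', hv'⟩ := hg y
    refine ⟨n + m, f ^ m • t + f ^ n • t', ?_, ?_⟩
    · rw [map_add, resSec_smul, resSec_smul, ht, ht', smul_add, ← mul_smul, ← mul_smul]
      simp only [hρ, ← map_mul, ← pow_add, add_comm m n]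
    · rw [map_add, hsmul, hsmul, hv, hv', smul_add, ← mul_smul, ← mul_smul]
      simp only [hρ, ← map_mul, ← pow_add, add_comm m n]
  have hres : ∀ s, g (resSec N h s) = i s := fun s =>
    huniq _ _ _ _ (hg _) ⟨0, s, by simp [hρ], by simp [hρ]⟩ rfl
  have hsm : ∀ (a : Γ(X, X.basicOpen f)) x, g (a • x) = a • g x := fun a x => by
    have key : ∀ (r : Γ(X, U)) y, g (ρ r • y) = ρ r • g y := fun r y => by
      refine huniq _ _ _ _ (hg _) ?_ rfl
      obtain ⟨n, t, ht, hv⟩ := hg y
      exact ⟨n, r • t, by rw [resSec_smul, ht, smul_comm], by rw [hsmul, hv, smul_comm]⟩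
    have hloc := hU.isLocalization_basicOpen f
    obtain ⟨⟨r, _, m, rfl⟩, hr⟩ := IsLocalization.surj (Submonoid.powers f) a
    replace hr : a * ρ (f ^ m) = ρ r := hr
    refine (hu m).smul_left_cancel.mp ?_
    rw [← key (f ^ m), ← mul_smul, ← mul_smul, mul_comm (ρ (f ^ m)) a, hr, key]
  let l : Γ(N, X.basicOpen f) →ₗ[Γ(X, X.basicOpen f)] M :=
    { toFun := g, map_add' := hlin, map_smul' := hsm }
  have hl : Function.Bijective l := by
    constructor
    · rw [injective_iff_map_eq_zero]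
      intro x hx
      obtain ⟨n, t, ht, hv⟩ := hg x
      have h0 : i t = i 0 := by rw [map_zero, hv, show g x = 0 from hx, smul_zero]
      rw [hi h0, map_zero] at ht
      exact (hu n).smul_eq_zero.mp ht.symm
    · intro v
      obtain ⟨n, s, hs⟩ := hex v
      obtain ⟨c, hc⟩ := (hu n).exists_left_inv
      refine ⟨c • resSec N h s, ?_⟩
      rw [map_smul, show l (resSec N h s) = i s from hres s, hs, ← mul_smul, hc, one_smul]
  refine ⟨(LinearEquiv.ofBijective l hl).symm, fun s => ?_⟩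
  exact (LinearEquiv.symm_apply_eq _).mpr (hres s).symm

/-- A surjective functional semilinear along a map trivialises the pullback. -/
theorem nonempty_iso_unit_of_functional {Y : Scheme.{u}} (ψ : Y ⟶ X) {L : X.Modules}
    (hL : Scheme.Modules.IsInvertible L) {U : X.Opens} (hU : IsAffineOpen U)
    (hY : IsAffineOpen (⊤ : Y.Opens)) (h : ⊤ ≤ ψ ⁻¹ᵁ U) (r : Γ(L, U) →+ Γ(Y, ⊤))
    (hr : ∀ (a : Γ(X, U)) (x : Γ(L, U)), r (a • x) = ψ.appLE U ⊤ h a * r x)
    (hsurj : Function.Surjective r) :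
    Nonempty ((Scheme.Modules.pullback ψ).obj L ≅ unitMod Y) := by
  letI : Algebra Γ(X, U) Γ(Y, ⊤) := (ψ.appLE U ⊤ h).hom.toAlgebra
  letI := Module.compHom Γ((Scheme.Modules.pullback ψ).obj L, ⊤)
    (algebraMap Γ(X, U) Γ(Y, ⊤))
  have : IsScalarTower Γ(X, U) Γ(Y, ⊤) Γ((Scheme.Modules.pullback ψ).obj L, ⊤) :=
    .of_algebraMap_smul fun _ _ => rfl
  let l : Γ(L, U) →ₗ[Γ(X, U)] Γ((Scheme.Modules.pullback ψ).obj L, ⊤) :=
    { toFun := pbLE ψ L h
      map_add' := map_add _
      map_smul' := fun a x => pbLE_smul ψ L h a x }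
  have hb := isBaseChange_pbLE ψ hU hY h hL l fun _ => rfl
  let r' : Γ(L, U) →ₗ[Γ(X, U)] Γ(Y, ⊤) :=
    { toFun := r
      map_add' := map_add _
      map_smul' := fun a x => hr a x }
  have hsurj' : Function.Surjective (hb.lift r') := fun y => by
    obtain ⟨x, rfl⟩ := hsurj y
    exact ⟨l x, hb.lift_eq r' x⟩
  have := invertible_sections hY (isInvertible_pullback' (ψ := ψ) hL)
  let e : Γ((Scheme.Modules.pullback ψ).obj L, ⊤) ≃ₗ[Γ(Y, ⊤)] Γ(unitMod Y, ⊤) :=
    (LinearEquiv.ofBijective _ (Module.Invertible.bijective_of_surjective hsurj')).trans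
      (toUnit ⊤)
  have := isQuasicoherent_unitMod (X := Y)
  exact ⟨(affineIso hY (localizes_of_isInvertible hY (isInvertible_pullback' (ψ := ψ) hL))
    (localizes_of_isQuasicoherent hY (unitMod Y)) e).toIso⟩

end General

section Chart

variable {X : Scheme.{u}} {S : Type u} [CommRing S] (j : Spec (CommRingCat.of S) ⟶ X)
  [IsOpenImmersion j]

/-- The inverse of `secHom`. -/
def secInv : Γ(X, j ''ᵁ ⊤) →+* S :=
  (RingEquiv.ofBijective _ (secHom_bijective j)).symm.toRingHom

theorem secInv_secHom (a : S) : secInv j (secHom j a) = a :=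
  (RingEquiv.ofBijective _ (secHom_bijective j)).symm_apply_apply a

variable (P : Type u) [AddCommMonoid P] [Module S P]

/-- A module over the ring of a chart, as a module over the functions on its image. -/
def chartMod : ModuleCat.{u} Γ(X, j ''ᵁ ⊤) :=
  letI : AddCommGroup P := Module.addCommMonoidToAddCommGroup S
  letI := Module.compHom P (secInv j)
  ModuleCat.of _ P

/-- The module attached to a module over the ring of a chart. -/
def chartModule : X.Modules := affineModule (isAffineOpen_image_top j) (chartMod j P)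

/-- The identification with the carrier. -/
def chartModEquiv : P ≃+ chartMod j P := AddEquiv.refl P

theorem chartModEquiv_smul (a : S) (x : P) :
    chartModEquiv j P (a • x) = secHom j a • chartModEquiv j P x := by
  show (a • x : P) = secInv j (secHom j a) • x
  rw [secInv_secHom]

/-- The sections of the attached module. -/
def chartSec : P ≃+ Γ(chartModule j P, j ''ᵁ ⊤) :=
  (chartModEquiv j P).trans
    (affineModuleSec (isAffineOpen_image_top j) (chartMod j P)).toAddEquiv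

theorem chartSec_smul (a : S) (x : P) :
    chartSec j P (a • x) = secHom j a • chartSec j P x := by
  show affineModuleSec _ _ (chartModEquiv j P (a • x)) = _
  rw [chartModEquiv_smul, map_smul]
  rfl

theorem localizes_chartModule_of_le {W : X.Opens} (hW : IsAffineOpen W) (h : W ≤ j ''ᵁ ⊤) :
    Localizes (chartModule j P) W :=
  localizes_affineModule_of_le (isAffineOpen_image_top j) (chartMod j P) hW h

theorem exists_isGen_chartModule [Module.Invertible S P] {x : X} (hx : x ∈ j ''ᵁ ⊤) :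
    ∃ W : X.Opens, x ∈ W ∧ ∃ s : Γ(chartModule j P, W), IsGen s :=
  have : Module.Invertible Γ(X, j ''ᵁ ⊤) (chartMod j P) :=
    letI : AddCommGroup P := Module.addCommMonoidToAddCommGroup S
    invertible_of_semilinear (secHom j) (secHom_bijective j) (chartModEquiv j P).toAddMonoidHom
      (chartModEquiv j P).bijective (chartModEquiv_smul j P)
  isInvertible_affineModule_restrict (isAffineOpen_image_top j) (chartMod j P) hx

/-- The restriction of the attached module to a smaller chart where it becomes the given module. -/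
theorem exists_addEquiv_chartModule {A : Type u} [CommRing A]
    (j₀ : Spec (CommRingCat.of A) ⟶ X) [IsOpenImmersion j₀] (φ : S →+* A)
    (hφ : Spec.map (CommRingCat.ofHom φ) ≫ j = j₀) (h : j₀ ''ᵁ ⊤ ≤ j ''ᵁ ⊤) (f : S)
    (hf : X.basicOpen (secHom j f) = j₀ ''ᵁ ⊤) {M : Type u} [AddCommGroup M] [Module A M]
    (i : P →+ M) (hi : Function.Injective i) (hsmul : ∀ (a : S) (x : P), i (a • x) = φ a • i x)
    (hex : ∀ v : M, ∃ (n : ℕ) (x : P), i x = φ f ^ n • v) :
    ∃ e : M ≃+ Γ(chartModule j P, j₀ ''ᵁ ⊤),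
      (∀ (a : A) v, e (a • v) = secHom j₀ a • e v) ∧
        ∀ v, (∃ x, i x = v) ↔ ∃ s : Γ(chartModule j P, j ''ᵁ ⊤), resSec _ h s = e v := by
  letI := Module.compHom M (secInv j₀)
  have hact : ∀ (r : Γ(X, j₀ ''ᵁ ⊤)) (v : M), r • v = secInv j₀ r • v := fun _ _ => rfl
  have hres : ∀ a : S, X.presheaf.map (homOfLE h).op (secHom j a) = secHom j₀ (φ a) :=
    res_secHom j j₀ φ hφ h
  let i' : Γ(chartModule j P, j ''ᵁ ⊤) →+ M := i.comp (chartSec j P).symm.toAddMonoidHom
  have hsm : ∀ (r : Γ(X, j ''ᵁ ⊤)) (s : Γ(chartModule j P, j ''ᵁ ⊤)),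
      i' (r • s) = X.presheaf.map (homOfLE h).op r • i' s := fun r s => by
    obtain ⟨a, rfl⟩ := (secHom_bijective j).surjective r
    obtain ⟨x, rfl⟩ := (chartSec j P).surjective s
    show i ((chartSec j P).symm (secHom j a • chartSec j P x)) =
      _ • i ((chartSec j P).symm (chartSec j P x))
    rw [← chartSec_smul, AddEquiv.symm_apply_apply, AddEquiv.symm_apply_apply, hsmul, hres, hact,
      secInv_secHom]
  have hexv : ∀ v : M, ∃ (n : ℕ) (s : Γ(chartModule j P, j ''ᵁ ⊤)),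
      i' s = X.presheaf.map (homOfLE h).op (secHom j f ^ n) • v := fun v => by
    obtain ⟨n, x, hx⟩ := hex v
    refine ⟨n, chartSec j P x, ?_⟩
    show i ((chartSec j P).symm (chartSec j P x)) = _
    rw [AddEquiv.symm_apply_apply, ← map_pow, hres, hact, secInv_secHom, map_pow, hx]
  obtain ⟨e, he⟩ := exists_linearEquiv_of_localizes (isAffineOpen_image_top j)
    (localizes_affineModule (isAffineOpen_image_top j) (chartMod j P)) (secHom j f) hf h i'
    (hi.comp (chartSec j P).symm.injective) hsm hexv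
  refine ⟨e.toAddEquiv, fun a v => ?_, fun v => ⟨?_, ?_⟩⟩
  · show e (a • v) = secHom j₀ a • e v
    rw [← map_smul, hact, secInv_secHom]
  · rintro ⟨x, rfl⟩
    exact ⟨chartSec j P x, ((congrArg e (congrArg i ((chartSec j P).symm_apply_apply x)).symm).trans
      (he (chartSec j P x))).symm⟩
  · rintro ⟨s, hs⟩
    exact ⟨(chartSec j P).symm s, e.injective ((he s).trans hs)⟩

omit [IsOpenImmersion j] in
/-- Sections extending correspond under an isomorphism on the larger open. -/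
theorem exists_resSec_iff_of_isoOn {L N : X.Modules} {U W : X.Opens} (e : IsoOn L N U) (h : W ≤ U)
    (x : Γ(N, W)) :
    (∃ s, resSec N h s = x) ↔ ∃ s, resSec L h s = e.inv.app W h x := by
  refine ⟨fun ⟨s, hs⟩ => ⟨e.inv.app U le_rfl s, ?_⟩, fun ⟨s, hs⟩ => ⟨e.hom.app U le_rfl s, ?_⟩⟩
  · rw [← e.inv.natural U W le_rfl h, hs]
  · rw [← e.hom.natural U W le_rfl h, hs]
    exact e.hom_inv_app W h x

omit [IsOpenImmersion j] in
/-- Functions of a chart pulled back along a map into it from an affine scheme. -/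
theorem appLE_secHom_affine [IsOpenImmersion j] {S' : Type u} [CommRing S'] (φ : S →+* S')
    (g : Spec (CommRingCat.of S') ⟶ X) (hg : Spec.map (CommRingCat.ofHom φ) ≫ j = g)
    (e : ⊤ ≤ g ⁻¹ᵁ j ''ᵁ ⊤) (a : S) :
    g.appLE (j ''ᵁ ⊤) ⊤ e (secHom j a) = (Scheme.ΓSpecIso (CommRingCat.of S')).inv (φ a) := by
  subst hg
  rw [← Scheme.Hom.appLE_comp_appLE (Spec.map (CommRingCat.ofHom φ)) j
      (j ''ᵁ ⊤) ⊤ ⊤ (j.preimage_image_eq ⊤).ge (Scheme.Hom.preimage_top _).ge,
    ← Scheme.Hom.appIso_hom', ConcreteCategory.comp_apply, appIso_hom_secHom, Scheme.Hom.appLE]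
  rw [← ConcreteCategory.comp_apply (Scheme.ΓSpecIso (CommRingCat.of S)).inv]
  exact congr($(Scheme.ΓSpecIso_inv_naturality (CommRingCat.ofHom φ)).hom a).symm

end Chart

variable {k : Type u} [Field k] {C : Scheme.{u}} {c : C ⟶ Spec (CommRingCat.of k)}
  {ε : SchemeHomOver (𝟙 (Spec (CommRingCat.of k))) c} (G : GeomModel c ε)
  {R : Type u} [CommRing R] [Algebra k R]

/-- The triple of a module glued from two charts. -/
theorem tripleOf_of_glue {T : Triple G.model R} {L Np Nm : (pullback c (str k R)).Modules}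
    (eU : IsoOn L Np (G.jp R ''ᵁ ⊤)) (eV : IsoOn L Nm (G.jm R ''ᵁ ⊤))
    (ep : T.M ≃+ Γ(Np, G.j₀ R ''ᵁ ⊤)) (em : T.M ≃+ Γ(Nm, G.j₀ R ''ᵁ ⊤))
    (hep : ∀ (a : G.model.A R) v, ep (a • v) = secHom (G.j₀ R) a • ep v)
    (hcompat : ∀ y, em (ep.symm (eU.hom.app _ (G.image_le_p R) y)) =
      eV.hom.app _ (G.image_le_m R) y)
    (hp : ∀ v, v ∈ T.p ↔ ∃ s, resSec Np (G.image_le_p R) s = ep v)
    (hm : ∀ v, v ∈ T.m ↔ ∃ s, resSec Nm (G.image_le_m R) s = em v) :
    TripleOf G R L T := by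
  refine ⟨
    { toEquiv := ep.trans (eU.appEquiv _ (G.image_le_p R)).symm.toAddEquiv
      map_smul := fun a v => ?_
      mem_p := fun v => (hp v).trans (exists_resSec_iff_of_isoOn eU _ _)
      mem_m := fun v => (hm v).trans ?_ }⟩
  · show (eU.appEquiv _ (G.image_le_p R)).symm (ep (a • v)) = _
    rw [hep]
    exact (eU.appEquiv _ (G.image_le_p R)).symm.map_smul _ _
  · refine (exists_resSec_iff_of_isoOn eV _ _).trans (Iff.of_eq ?_)
    refine congrArg (fun z => ∃ s, resSec L (G.image_le_m R) s = z) ?_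
    show eV.inv.app _ (G.image_le_m R) (em v) = eU.inv.app _ (G.image_le_p R) (ep v)
    have h1 := hcompat (eU.inv.app _ (G.image_le_p R) (ep v))
    have hv := congrArg em
      ((congrArg ep.symm (eU.hom_inv_app _ (G.image_le_p R) _)).trans (ep.symm_apply_apply v))
    exact (congrArg (eV.inv.app _ _) (hv.symm.trans h1)).trans (eV.inv_hom_app _ _ _)

/-- A linear equivalence on the overlap out of two identifications. -/
theorem exists_overlapEquiv {A M : Type u} [CommRing A] [AddCommGroup M] [Module A M]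
    {X : Scheme.{u}} (j : Spec (CommRingCat.of A) ⟶ X) [IsOpenImmersion j] {N N' : X.Modules}
    (ep : M ≃+ Γ(N, j ''ᵁ ⊤)) (em : M ≃+ Γ(N', j ''ᵁ ⊤))
    (hep : ∀ (a : A) v, ep (a • v) = secHom j a • ep v)
    (hem : ∀ (a : A) v, em (a • v) = secHom j a • em v) :
    ∃ g : Γ(N, j ''ᵁ ⊤) ≃ₗ[Γ(X, j ''ᵁ ⊤)] Γ(N', j ''ᵁ ⊤), ∀ y, g y = em (ep.symm y) := by
  refine ⟨(ep.symm.trans em).toLinearEquiv fun r y => ?_, fun y => rfl⟩
  obtain ⟨a, rfl⟩ := (secHom_bijective j).surjective r
  obtain ⟨v, rfl⟩ := ep.surjective y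
  show em (ep.symm (secHom j a • ep v)) = secHom j a • em (ep.symm (ep v))
  rw [← hep, AddEquiv.symm_apply_apply, AddEquiv.symm_apply_apply, hem]

/-- Every triple is the triple of an invertible module. -/
theorem exists_module_tripleOf (T : Triple G.model R) :
    ∃ L : (pullback c (str k R)).Modules,
      Scheme.Modules.IsInvertible L ∧ TripleOf G R L T := by
  have := T.inv_p
  have := T.inv_m
  obtain ⟨ep, hep, hp⟩ := exists_addEquiv_chartModule (G.jp R) T.p (G.j₀ R)
    (G.model.Cp R).val.toRingHom (G.val_jp R) (G.image_le_p R) (G.model.xP R) (G.basicOpen_xP R)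
    T.p.subtype.toAddMonoidHom Subtype.val_injective (fun _ _ => rfl) fun v => by
      obtain ⟨n, hn⟩ := T.exists_pow_smul_mem_p v
      exact ⟨n, ⟨_, hn⟩, by simp only [LinearMap.toAddMonoidHom_coe, Submodule.subtype_apply]; rfl⟩
  obtain ⟨em, hem, hm⟩ := exists_addEquiv_chartModule (G.jm R) T.m (G.j₀ R)
    (G.model.Cm R).val.toRingHom (G.val_jm R) (G.image_le_m R) (G.model.yM R) (G.basicOpen_yM R)
    T.m.subtype.toAddMonoidHom Subtype.val_injective (fun _ _ => rfl) fun v => by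
      obtain ⟨n, hn⟩ := T.exists_pow_smul_mem_m v
      exact ⟨n, ⟨_, hn⟩, by simp only [LinearMap.toAddMonoidHom_coe, Submodule.subtype_apply]; rfl⟩
  obtain ⟨g, hg⟩ := exists_overlapEquiv (G.j₀ R) ep em hep hem
  have hinf : G.jp R ''ᵁ ⊤ ⊓ G.jm R ''ᵁ ⊤ ≤ G.j₀ R ''ᵁ ⊤ := (G.opensP_inf_opensM R).le
  have hcov : G.jp R ''ᵁ ⊤ ⊔ G.jm R ''ᵁ ⊤ = ⊤ := G.opensP_sup_opensM R
  obtain ⟨L, eU, eV, hUV⟩ := exists_glue_two hcov _ _
    ((affineIso (isAffineOpen_image_top (G.j₀ R))
      (localizes_chartModule_of_le (G.jp R) T.p (isAffineOpen_image_top (G.j₀ R)) (G.image_le_p R))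
      (localizes_chartModule_of_le (G.jm R) T.m (isAffineOpen_image_top (G.j₀ R)) (G.image_le_m R))
      g).restrict hinf)
  refine ⟨L, isInvertible_iff.mpr fun x => ?_, tripleOf_of_glue G eU eV ep em hep (fun y => ?_)
    (fun v => ?_) fun v => ?_⟩
  · have hx : x ∈ G.jp R ''ᵁ ⊤ ⊔ G.jm R ''ᵁ ⊤ := by rw [hcov]; trivial
    rcases hx with hx | hx
    · obtain ⟨W, hW, s, hs⟩ := exists_isGen_chartModule (G.jp R) T.p hx
      exact ⟨G.jp R ''ᵁ ⊤ ⊓ W, ⟨hx, hW⟩,
        ⟨(eU.restrict inf_le_left).trans (hs.isoOn.symm.restrict inf_le_right)⟩⟩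
    · obtain ⟨W, hW, s, hs⟩ := exists_isGen_chartModule (G.jm R) T.m hx
      exact ⟨G.jm R ''ᵁ ⊤ ⊓ W, ⟨hx, hW⟩,
        ⟨(eV.restrict inf_le_left).trans (hs.isoOn.symm.restrict inf_le_right)⟩⟩
  · have h1 := LinearMap.congr_fun (congrFun (congrFun (congrArg HomOn.app
      (congrArg IsoOn.hom hUV)) (G.j₀ R ''ᵁ ⊤)) (le_inf (G.image_le_p R) (G.image_le_m R))) y
    rw [← hg]
    refine Eq.trans ?_ h1
    have h2 := affineIso_app (isAffineOpen_image_top (G.j₀ R))
      (localizes_chartModule_of_le (G.jp R) T.p (isAffineOpen_image_top (G.j₀ R)) (G.image_le_p R))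
      (localizes_chartModule_of_le (G.jm R) T.m (isAffineOpen_image_top (G.j₀ R)) (G.image_le_m R)) g
      (G.j₀ R ''ᵁ ⊤) le_rfl (eU.hom.app _ (G.image_le_p R) y)
    exact ((congrArg _ (resSec_self _ _ _).symm).trans (h2.trans (resSec_self _ _ _))).symm
  · rw [← hp]
    exact ⟨fun hv => ⟨⟨v, hv⟩, rfl⟩, fun ⟨x, hx⟩ => hx ▸ x.2⟩
  · rw [← hm]
    exact ⟨fun hv => ⟨⟨v, hv⟩, rfl⟩, fun ⟨x, hx⟩ => hx ▸ x.2⟩

/-- Every rigid triple is the triple of a rigidified line bundle. -/
theorem GeomModel.exists_rigidified (T : Triple G.model R) (hT : T.IsRigid G.e) :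
    ∃ M : RigidifiedLineBundle c ε (str k R), TripleOf G R M.L T := by
  obtain ⟨L, hL, ⟨D⟩⟩ := exists_module_tripleOf G T
  obtain ⟨r, hr, hsurj⟩ := hT
  have hle : (⊤ : (Spec (CommRingCat.of R)).Opens) ≤
      rigSection c (str k R) ε ⁻¹ᵁ G.j₀ R ''ᵁ ⊤ := fun x _ => G.range_rigSection R x
  let σR := (Scheme.ΓSpecIso (CommRingCat.of R)).symm.commRingCatIsoToRingEquiv
  let r₀ : Γ(L, G.j₀ R ''ᵁ ⊤) →+ Γ(Spec (CommRingCat.of R), ⊤) :=
    σR.toRingHom.toAddMonoidHom.comp (r.toAddMonoidHom.comp D.toEquiv.symm.toAddMonoidHom)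
  refine ⟨⟨L, hL, nonempty_iso_unit_of_functional (rigSection c (str k R) ε) hL
    (isAffineOpen_image_top (G.j₀ R)) (isAffineOpen_top _) hle r₀ (fun a x => ?_) ?_⟩, ⟨D⟩⟩
  · obtain ⟨a, rfl⟩ := (secHom_bijective (G.j₀ R)).surjective a
    obtain ⟨v, rfl⟩ := D.toEquiv.surjective x
    rw [appLE_secHom_affine (G.j₀ R) (G.model.evalR R G.e).toRingHom _ (G.evalR_j₀ R)]
    show σR (r (D.toEquiv.symm (secHom (G.j₀ R) a • D.toEquiv v))) =
      σR (G.model.evalR R G.e a) * σR (r (D.toEquiv.symm (D.toEquiv v)))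
    rw [← D.map_smul, AddEquiv.symm_apply_apply, AddEquiv.symm_apply_apply, hr, map_mul]
  · exact σR.surjective.comp (hsurj.comp D.toEquiv.symm.surjective)

end Fermat.Agent.RelPic

end
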